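/-
MAZUR / node (F6), mu_r half, cell [CycT] (helper29 for helper22 / [HOPF] / helper9): the constructor
of the character `T : E → K` of a module `E` of prime order `r` on which the group acts through the
cyclotomic character.

* `mzq_ct_general` : `G` a group acting on a field `K` by ring automorphisms, `ζ ∈ K` a primitive `r`-th
  root of unity, `c : G → ℕ` with `σ • ζ = ζ ^ c σ`, `E` of order `r` with `σ • e = c σ • e`
  ⟹ `∃ T : E → K`, `T 0 = 1`, `T (a + b) = T a * T b`, `T` injective, `T (σ • e) = σ • T e`,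
  `T e ^ r = 1`;
* `mzq_ct_exists` : the `G_ℚ`-form with `c σ = (dspk_cyc r σ).val` (the `eps i = true` line of
  `mzf1_Series`), conclusion `T (σ • e) = σ (T e)`.
Prefix `mzq_ct_`.
-/
import Mathlib
import Fermat.Agent.DS.Pack.CycloMod

set_option autoImplicit false

namespace Fermat.Agent.MZ

open Fermat.Agent.DS

section general

variable {r : ℕ} [NeZero r] {K : Type*} [Field K]

/-- `a ↦ ζ ^ a.val` on `ZMod r` is additive-to-multiplicative when `ζ ^ r = 1` -/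
theorem mzq_ct_pow_val_add {ζ : K} (hζ : ζ ^ r = 1) (a b : ZMod r) :
    ζ ^ (a + b).val = ζ ^ a.val * ζ ^ b.val := by
  rw [ZMod.val_add, ← pow_add]
  exact (pow_eq_pow_mod _ hζ).symm

theorem mzq_ct_pow_val_nsmul {ζ : K} (hζ : ζ ^ r = 1) (n : ℕ) (a : ZMod r) :
    ζ ^ (n • a).val = (ζ ^ a.val) ^ n := by
  induction n with
  | zero => simp
  | succ n ih => rw [succ_nsmul, mzq_ct_pow_val_add hζ, ih, pow_succ]

end general

/-- GENERAL FORM. -/
theorem mzq_ct_general {r : ℕ} (hr : r.Prime) {G : Type*} [Group G] {K : Type*} [Field K]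
    [MulSemiringAction G K] {ζ : K} (hζ : IsPrimitiveRoot ζ r) (c : G → ℕ)
    (hc : ∀ σ : G, σ • ζ = ζ ^ c σ)
    {E : Type*} [AddCommGroup E] [DistribMulAction G E] (hE : Nat.card E = r)
    (hact : ∀ (σ : G) (e : E), σ • e = c σ • e) :
    ∃ T : E → K, T 0 = 1 ∧ (∀ a b, T (a + b) = T a * T b) ∧ Function.Injective T ∧
      (∀ (σ : G) (e : E), T (σ • e) = σ • T e) ∧ ∀ e, T e ^ r = 1 := by
  have : Fact r.Prime := ⟨hr⟩
  have : NeZero r := ⟨hr.ne_zero⟩
  have : IsAddCyclic E := isAddCyclic_of_prime_card hE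
  have φ0 : ZMod (Nat.card E) ≃+ E := zmodAddCyclicAddEquiv (G := E) inferInstance
  have φ : E ≃+ ZMod r := by
    rw [hE] at φ0
    exact φ0.symm
  have hζr : ζ ^ r = 1 := hζ.pow_eq_one
  refine ⟨fun e => ζ ^ (φ e).val, ?_, ?_, ?_, ?_, ?_⟩
  · simp
  · intro a b
    show ζ ^ (φ (a + b)).val = _
    rw [map_add, mzq_ct_pow_val_add hζr]
  · intro a b hab
    have hab' : ζ ^ (φ a).val = ζ ^ (φ b).val := hab
    have h1 := hζ.pow_inj (ZMod.val_lt _) (ZMod.val_lt _) hab'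
    exact φ.injective (ZMod.val_injective r h1)
  · intro σ e
    show ζ ^ (φ (σ • e)).val = σ • ζ ^ (φ e).val
    rw [hact, map_nsmul, mzq_ct_pow_val_nsmul hζr, smul_pow', hc, ← pow_mul, ← pow_mul, mul_comm]
  · intro e
    show (ζ ^ (φ e).val) ^ r = 1
    rw [← pow_mul, mul_comm, pow_mul, hζr, one_pow]

/-- `G_ℚ`-FORM: `E` of prime order `r` with `σ • e = (cyc_r σ).val • e`. -/
theorem mzq_ct_exists {r : ℕ} (hr : r.Prime) [NeZero r]
    {E : Type*} [AddCommGroup E] [DistribMulAction ds_G E] (hE : Nat.card E = r)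
    (hact : ∀ (σ : ds_G) (e : E), σ • e = ((dspk_cyc r σ : (ZMod r)ˣ) : ZMod r).val • e) :
    ∃ T : E → ds_Qb, T 0 = 1 ∧ (∀ a b, T (a + b) = T a * T b) ∧ Function.Injective T ∧
      (∀ (σ : ds_G) (e : E), T (σ • e) = σ (T e)) ∧ ∀ e, T e ^ r = 1 := by
  obtain ⟨ζ, hζ⟩ := HasEnoughRootsOfUnity.exists_primitiveRoot ds_Qb r
  obtain ⟨T, h0, hadd, hinj, heq, hpow⟩ :=
    mzq_ct_general (G := ds_G) (K := ds_Qb) hr hζ
      (fun σ => ((dspk_cyc r σ : (ZMod r)ˣ) : ZMod r).val)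
      (fun σ => dspk_cyc_spec r σ hζ.pow_eq_one) hE hact
  exact ⟨T, h0, hadd, hinj, fun σ e => heq σ e, hpow⟩

end Fermat.Agent.MZ
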