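/-
Project MAZUR (S15), node (F6), μ_r half, cell [KUM] (helper22): Kummer theory for `H¹(G_ℚ, μ_r)`.

`Qb = AlgebraicClosure ℚ`, `GQ = Gal(Qb/ℚ)`.  `E` a `GQ`-module identified with `μ_r` through an
injective equivariant character `T : E → Qb` (`T (a + b) = T a * T b`).

* `mzq_h90` : finite-level Hilbert 90: a `Qb`-valued multiplicative cocycle `f` on `GQ` with values
  in a finite normal `K'` and trivial on `Gal(Qb/K')` is `σ ↦ σ y / y`;
* `mzq_exists_kummer` : a cocycle `c : GQ → E` vanishing on `Gal(Qb/K)`, `K` finite, is the Kummer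
  cocycle of some `y ≠ 0`: `σ y = T (c σ) * y`;
* `mzq_kummer_pow_rat` : then `y ^ r` is rational (`r = |E|`);
* `mzq_T_surj` : `T` takes all the `r`-th roots of unity as values;
* `mzq_coboundary_of_pow` : if `y ^ r = t ^ r` with `t` rational then `c` is a coboundary.
Prefix `mzq_`.
-/
import Mathlib
import Fermat.Agent.MZ.H.Coh

set_option autoImplicit false
set_option linter.style.haveILetI false

noncomputable section

namespace Fermat.Agent.MZ

local notation "Qb" => AlgebraicClosure ℚ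
local notation "GQ" => (AlgebraicClosure ℚ ≃ₐ[ℚ] AlgebraicClosure ℚ)

theorem mzq_normal_Qb : Normal ℚ Qb := by
  have _ : IsAlgClosure ℚ Qb := ⟨inferInstance, AlgebraicClosure.isAlgebraic ℚ⟩
  exact IsAlgClosure.normal ℚ Qb

/-- the restriction of `σ` to a normal `K'` agrees with `σ` -/
theorem mzq_restrict_coe (K' : IntermediateField ℚ Qb) [Normal ℚ K'] (σ : GQ) (x : ↥K') :
    ((AlgEquiv.restrictNormalHom K' σ x : ↥K') : Qb) = σ (x : Qb) :=
  AlgEquiv.restrictNormal_commutes σ K' x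

/-- **finite-level Hilbert 90 over `ℚ`** -/
theorem mzq_h90 (K' : IntermediateField ℚ Qb) [FiniteDimensional ℚ K'] [Normal ℚ K']
    (f : GQ → Qb) (hfK : ∀ σ, f σ ∈ K') (hf0 : ∀ σ, f σ ≠ 0)
    (hfmul : ∀ σ τ, f (σ * τ) = f σ * σ (f τ))
    (hf1 : ∀ σ ∈ K'.fixingSubgroup, f σ = 1) :
    ∃ y : Qb, y ≠ 0 ∧ ∀ σ : GQ, σ y = f σ * y := by
  classical
  haveI := mzq_normal_Qb
  -- `f` depends only on the restriction to `K'`
  have P1 : ∀ σ τ : GQ, AlgEquiv.restrictNormalHom K' σ = AlgEquiv.restrictNormalHom K' τ →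
      f σ = f τ := by
    intro σ τ hστ
    have hmem : σ⁻¹ * τ ∈ K'.fixingSubgroup := by
      rw [IntermediateField.mem_fixingSubgroup_iff]
      intro x hx
      have h2 := congrArg (fun g : ↥K' ≃ₐ[ℚ] ↥K' => ((g ⟨x, hx⟩ : ↥K') : Qb)) hστ
      simp only [mzq_restrict_coe] at h2
      show σ⁻¹ (τ x) = x
      rw [← h2]
      exact σ.symm_apply_apply x
    have h1 := hfmul σ (σ⁻¹ * τ)
    rw [mul_inv_cancel_left, hf1 _ hmem, map_one, mul_one] at h1
    exact h1.symm
  have hsurj := AlgEquiv.restrictNormalHom_surjective (F := ℚ) (K₁ := ↥K') Qb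
  choose lift hlift using hsurj
  -- the finite-level cocycle
  let fb : (↥K' ≃ₐ[ℚ] ↥K') → (↥K')ˣ := fun g =>
    Units.mk0 ⟨f (lift g), hfK (lift g)⟩ (fun h0 => hf0 (lift g) (congrArg Subtype.val h0))
  have hfb : ∀ g, (((fb g : (↥K')ˣ) : ↥K') : Qb) = f (lift g) := fun g => rfl
  have hcoc : groupCohomology.IsMulCocycle₁ fb := by
    intro g g'
    apply Units.ext
    apply Subtype.ext
    rw [Units.val_mul, MulMemClass.coe_mul, hfb, hfb, AlgEquiv.smul_units_def]
    have h1 : f (lift (g * g')) = f (lift g * lift g') := by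
      apply P1
      rw [hlift, map_mul, hlift, hlift]
    rw [h1, hfmul, mul_comm]
    congr 1
    have h2 := mzq_restrict_coe K' (lift g) ((fb g' : (↥K')ˣ) : ↥K')
    rw [hlift, hfb] at h2
    rw [← h2]
    rfl
  obtain ⟨β, hβ⟩ := groupCohomology.isMulCoboundary₁_of_isMulCocycle₁_of_aut_to_units fb hcoc
  have hβ' : ∀ g : ↥K' ≃ₐ[ℚ] ↥K', g (β : ↥K') = ((fb g : (↥K')ˣ) : ↥K') * (β : ↥K') := by
    intro g
    have h1 := hβ g
    rw [div_eq_iff_eq_mul] at h1
    have h2 := congrArg (fun u : (↥K')ˣ => (u : ↥K')) h1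
    simpa [AlgEquiv.smul_units_def] using h2
  refine ⟨((β : ↥K') : Qb), ?_, ?_⟩
  · intro h0
    exact β.ne_zero (Subtype.ext h0)
  · intro σ
    have h1 := mzq_restrict_coe K' σ (β : ↥K')
    rw [← h1, hβ', MulMemClass.coe_mul, hfb]
    congr 1
    apply P1
    rw [hlift]

/-! ### `E = μ_r` through a character `T` -/

section Mu

variable {E : Type*} [AddCommGroup E]
  (T : E → Qb) (hT0 : T 0 = 1) (hTadd : ∀ a b : E, T (a + b) = T a * T b)

include hT0 hTadd in
theorem mzq_T_ne_zero (e : E) : T e ≠ 0 := by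
  intro h0
  have h1 := hTadd e (-e)
  rw [add_neg_cancel, hT0, h0, zero_mul] at h1
  exact one_ne_zero h1

include hT0 hTadd in
theorem mzq_T_nsmul (n : ℕ) (e : E) : T (n • e) = T e ^ n := by
  induction n with
  | zero => rw [zero_smul, pow_zero, hT0]
  | succ n ih => rw [succ_nsmul, hTadd, ih, pow_succ]

include hT0 hTadd in
theorem mzq_T_neg (e : E) : T (-e) = (T e)⁻¹ := by
  have h1 := hTadd e (-e)
  rw [add_neg_cancel, hT0] at h1
  exact eq_inv_of_mul_eq_one_right h1.symm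

include hT0 hTadd in
theorem mzq_T_sub (a b : E) : T (a - b) = T a / T b := by
  rw [sub_eq_add_neg, hTadd, mzq_T_neg T hT0 hTadd, div_eq_mul_inv]

include hT0 hTadd in
theorem mzq_T_pow_card [Finite E] (e : E) : T e ^ Nat.card E = 1 := by
  rw [← mzq_T_nsmul T hT0 hTadd, card_nsmul_eq_zero', hT0]

variable [DistribMulAction GQ E] (hTeq : ∀ (σ : GQ) (e : E), T (σ • e) = σ (T e))

include hT0 hTadd hTeq in
/-- **Kummer**: a cocycle `c : GQ → E` vanishing on `Gal(Qb/K)`, `K` a finite extension of `ℚ`, is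
the Kummer cocycle of some `y ≠ 0`. -/
theorem mzq_exists_kummer [Finite E] (c : ↥(mzh_Z1 GQ E)) (K : IntermediateField ℚ Qb)
    [FiniteDimensional ℚ K] (hc : ∀ σ ∈ K.fixingSubgroup, (c : GQ → E) σ = 0) :
    ∃ y : Qb, y ≠ 0 ∧ ∀ σ : GQ, σ y = T ((c : GQ → E) σ) * y := by
  classical
  haveI := mzq_normal_Qb
  have hint : ∀ x ∈ Set.range T, IsIntegral ℚ x := fun x _ =>
    ((AlgebraicClosure.isAlgebraic ℚ).isAlgebraic x).isIntegral
  haveI : FiniteDimensional ℚ ↥(IntermediateField.adjoin ℚ (Set.range T)) :=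
    IntermediateField.finiteDimensional_adjoin hint
  haveI : FiniteDimensional ℚ ↥(K ⊔ IntermediateField.adjoin ℚ (Set.range T)) :=
    IntermediateField.finiteDimensional_sup K _
  let K' : IntermediateField ℚ Qb :=
    IntermediateField.normalClosure ℚ ↥(K ⊔ IntermediateField.adjoin ℚ (Set.range T)) Qb
  haveI : FiniteDimensional ℚ K' :=
    normalClosure.is_finiteDimensional ℚ ↥(K ⊔ IntermediateField.adjoin ℚ (Set.range T)) Qb
  haveI : Normal ℚ K' :=
    normalClosure.normal ℚ ↥(K ⊔ IntermediateField.adjoin ℚ (Set.range T)) Qb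
  have hKK' : K ≤ K' := le_trans le_sup_left (IntermediateField.le_normalClosure _)
  have hTK' : ∀ e : E, T e ∈ K' := fun e =>
    (le_trans le_sup_right (IntermediateField.le_normalClosure _) :
      IntermediateField.adjoin ℚ (Set.range T) ≤ K')
      (IntermediateField.subset_adjoin ℚ _ ⟨e, rfl⟩)
  refine mzq_h90 K' (fun σ => T ((c : GQ → E) σ)) (fun σ => hTK' _)
    (fun σ => mzq_T_ne_zero T hT0 hTadd _) (fun σ τ => ?_) (fun σ hσ => ?_)
  · show T ((c : GQ → E) (σ * τ)) = T ((c : GQ → E) σ) * σ (T ((c : GQ → E) τ))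
    rw [c.2 σ τ, hTadd, hTeq]
  · show T ((c : GQ → E) σ) = 1
    rw [hc σ (IntermediateField.fixingSubgroup_le hKK' hσ), hT0]

omit [DistribMulAction GQ E] in
include hT0 hTadd in
/-- the `r`-th power of a Kummer generator is rational -/
theorem mzq_kummer_pow_rat [Finite E] (c : GQ → E) (y : Qb)
    (hy : ∀ σ : GQ, σ y = T (c σ) * y) :
    ∃ x : ℚ, algebraMap ℚ Qb x = y ^ Nat.card E := by
  haveI := mzq_normal_Qb
  haveI : IsGalois ℚ Qb := ⟨⟩
  have h := (InfiniteGalois.mem_range_algebraMap_iff_fixed (k := ℚ) (K := Qb)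
    (y ^ Nat.card E)).mpr (fun σ => by
      rw [map_pow, hy, mul_pow, mzq_T_pow_card T hT0 hTadd, one_mul])
  exact h

omit [DistribMulAction GQ E] in
include hT0 hTadd in
/-- `T` takes every `|E|`-th root of unity as a value -/
theorem mzq_T_surj [Finite E] (hTinj : Function.Injective T) (ζ : Qb)
    (hζ : ζ ^ Nat.card E = 1) : ∃ a : E, T a = ζ := by
  classical
  have hpos : 0 < Nat.card E := Nat.card_pos
  let R := Polynomial.nthRootsFinset (Nat.card E) (1 : Qb)
  let g : E → ↥R := fun e =>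
    ⟨T e, (Polynomial.mem_nthRootsFinset hpos 1).mpr (mzq_T_pow_card T hT0 hTadd e)⟩
  have hg : Function.Injective g := fun a b hab => hTinj (congrArg Subtype.val hab)
  have hcard : Nat.card ↥R ≤ Nat.card E := by
    rw [Nat.card_eq_fintype_card, Fintype.card_coe]
    exact le_trans (Multiset.toFinset_card_le _) (Polynomial.card_nthRoots _ _)
  obtain ⟨a, ha⟩ := (hg.bijective_of_nat_card_le hcard).2
    ⟨ζ, (Polynomial.mem_nthRootsFinset hpos 1).mpr hζ⟩
  exact ⟨a, congrArg Subtype.val ha⟩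

include hT0 hTadd hTeq in
/-- if the `r`-th power of a Kummer generator is an `r`-th power of a rational number, the cocycle
is a coboundary -/
theorem mzq_coboundary_of_pow [Finite E] (hTinj : Function.Injective T) (c : GQ → E) (y : Qb)
    (hy0 : y ≠ 0) (hy : ∀ σ : GQ, σ y = T (c σ) * y) (t : ℚ)
    (ht : y ^ Nat.card E = (algebraMap ℚ Qb t) ^ Nat.card E) :
    ∃ a : E, ∀ σ : GQ, c σ = σ • a - a := by
  have hpos : 0 < Nat.card E := Nat.card_pos
  have ht0 : algebraMap ℚ Qb t ≠ 0 := by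
    intro h0
    rw [h0, zero_pow hpos.ne'] at ht
    exact hy0 (pow_eq_zero_iff hpos.ne' |>.mp ht)
  obtain ⟨a, ha⟩ := mzq_T_surj T hT0 hTadd hTinj (y / algebraMap ℚ Qb t) (by
    rw [div_pow, ht, div_self (pow_ne_zero _ ht0)])
  refine ⟨a, fun σ => ?_⟩
  have h1 : T (σ • a) = T (c σ + a) := by
    rw [hTeq, ha, map_div₀, hy, AlgEquiv.commutes, hTadd, ha, mul_div_assoc]
  have h2 := hTinj h1
  rw [h2]
  abel

end Mu

end Fermat.Agent.MZ
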