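/-
MAZUR / node (F6), mu_r half, cell [LOC] (helper22).  Prefix `mzq_`.

The two local conditions on classes in `H¹(G_ℚ, E)`, `E ≅ μ_r` through `T : E → ℚ̄`, and the local
computation:

* `mzq_Cont x`      : `x` has a representative vanishing on `Gal(ℚ̄/K)`, `[K:ℚ] < ∞`;
* `mzq_UnitAt T A x`: some representative of `x` is, on the inertia group of the place `A`, the Kummer
  cocycle of a UNIT `β` of `A` (output shape of the [HOPF] seam `mzo_SeamMuUnit`);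
* `mzq_unitAt_rep`  : then EVERY representative is;
* `mzq_unitAt_of_unram` : classes whose restriction to inertia vanishes are unit classes;
* `mzq_loc_dvd`     : if `σ y = T (c σ) y` for all `σ`, `y ^ r = x ∈ ℚ`, and `cls c` is a unit class
  at a place `A | ℓ`, then `r ∣ v_ℓ(x)`.
-/
import Mathlib
import Fermat.Agent.MZ.Q.Kummer
import Fermat.Agent.FF.Inst.LevelInertia
import Fermat.Agent.S05.RatVal
import Fermat.Agent.S55.LevelFields

set_option autoImplicit false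
set_option linter.unusedSectionVars false

open Pointwise

namespace Fermat.Agent.MZ

local notation "Qb" => AlgebraicClosure ℚ
local notation "GQ" => (AlgebraicClosure ℚ ≃ₐ[ℚ] AlgebraicClosure ℚ)

section Defs

variable {E : Type*} [AddCommGroup E] [DistribMulAction GQ E]

/-- `x` has a representative cocycle which vanishes on `Gal(ℚ̄/K)` for a finite extension `K`. -/
def mzq_Cont (x : mzh_H1 GQ E) : Prop :=
  ∃ c : ↥(mzh_Z1 GQ E), mzh_cls GQ E c = x ∧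
    ∃ K : IntermediateField ℚ Qb, FiniteDimensional ℚ K ∧
      ∀ σ ∈ K.fixingSubgroup, (c : GQ → E) σ = 0

/-- on the inertia group of `A`, some representative of `x` is the Kummer cocycle of a unit of `A` -/
def mzq_UnitAt (T : E → Qb) (A : ValuationSubring Qb) (x : mzh_H1 GQ E) : Prop :=
  ∃ c : ↥(mzh_Z1 GQ E), mzh_cls GQ E c = x ∧
    ∃ β : Qb, β ∈ A ∧ β⁻¹ ∈ A ∧ β ≠ 0 ∧
      ∀ σ ∈ A.inertiaSubgroupIn ℚ, T ((c : GQ → E) σ) * β = σ β

end Defs

/-- an element of finite multiplicative order lies in every valuation subring, with its inverse -/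
theorem mzq_root_mem (A : ValuationSubring Qb) (ζ : Qb) (n : ℕ) (hn : 0 < n) (hζ : ζ ^ n = 1) :
    ζ ∈ A ∧ ζ⁻¹ ∈ A := by
  have hinv : ζ⁻¹ = ζ ^ (n - 1) := by
    have h0 : ζ ≠ 0 := by
      rintro rfl
      rw [zero_pow hn.ne'] at hζ
      exact zero_ne_one hζ
    have : ζ * ζ ^ (n - 1) = 1 := by
      rw [← pow_succ', Nat.sub_add_cancel hn, hζ]
    exact (eq_inv_of_mul_eq_one_right this).symm ▸ rfl
  have hinv' : ζ = ζ⁻¹ ^ (n - 1) := by
    rw [inv_pow, ← hinv, inv_inv]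
  rcases A.mem_or_inv_mem ζ with h | h
  · exact ⟨h, hinv ▸ pow_mem h _⟩
  · exact ⟨hinv' ▸ pow_mem h _, h⟩

section Mu

variable {E : Type*} [AddCommGroup E] [DistribMulAction GQ E]
  (T : E → Qb) (hT0 : T 0 = 1) (hTadd : ∀ a b : E, T (a + b) = T a * T b)
  (hTeq : ∀ (σ : GQ) (e : E), T (σ • e) = σ (T e))

include hT0 hTadd in
theorem mzq_T_mem [Finite E] (A : ValuationSubring Qb) (e : E) : T e ∈ A ∧ (T e)⁻¹ ∈ A :=
  mzq_root_mem A (T e) (Nat.card E) Nat.card_pos (mzq_T_pow_card T hT0 hTadd e)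

include hT0 hTadd hTeq in
/-- a unit class at `A` is a unit class through EVERY representative -/
theorem mzq_unitAt_rep [Finite E] (A : ValuationSubring Qb) (c : ↥(mzh_Z1 GQ E))
    (h : mzq_UnitAt T A (mzh_cls GQ E c)) :
    ∃ β : Qb, β ∈ A ∧ β⁻¹ ∈ A ∧ β ≠ 0 ∧
      ∀ σ ∈ A.inertiaSubgroupIn ℚ, T ((c : GQ → E) σ) * β = σ β := by
  obtain ⟨c', hc', β, hβ, hβi, hβ0, hβσ⟩ := h
  obtain ⟨a, ha⟩ := (mzh_cls_eq_iff GQ E c c').mp hc'.symm
  obtain ⟨hTa, hTai⟩ := mzq_T_mem T hT0 hTadd A a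
  have hTa0 := mzq_T_ne_zero T hT0 hTadd a
  refine ⟨β * T a, A.mul_mem _ _ hβ hTa, ?_, mul_ne_zero hβ0 hTa0, fun σ hσ => ?_⟩
  · rw [mul_inv]; exact A.mul_mem _ _ hβi hTai
  · have h1 : (c : GQ → E) σ + a = (c' : GQ → E) σ + σ • a := by
      have := ha σ
      have h2 : (c : GQ → E) σ = (c' : GQ → E) σ + (σ • a - a) := by
        rw [← this]; abel
      rw [h2]; abel
    have h3 : T ((c : GQ → E) σ) * T a = T ((c' : GQ → E) σ) * σ (T a) := by
      rw [← hTadd, h1, hTadd, hTeq]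
    calc T ((c : GQ → E) σ) * (β * T a) = (T ((c : GQ → E) σ) * T a) * β := by ring
      _ = (T ((c' : GQ → E) σ) * β) * σ (T a) := by rw [h3]; ring
      _ = σ (β * T a) := by rw [hβσ σ hσ, map_mul]

include hT0 hTadd hTeq in
/-- classes which die on the inertia group of `A` are unit classes at `A` -/
theorem mzq_unitAt_of_unram [Finite E] (A : ValuationSubring Qb) (x : mzh_H1 GQ E)
    (h : mzh_H1resSub (A.inertiaSubgroupIn ℚ) x = 0) : mzq_UnitAt T A x := by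
  obtain ⟨c, rfl⟩ := mzh_cls_surjective GQ E x
  obtain ⟨a, ha⟩ := (mzh_H1resSub_eq_zero_iff _ c).mp h
  obtain ⟨hTa, hTai⟩ := mzq_T_mem T hT0 hTadd A a
  refine ⟨c, rfl, T a, hTa, hTai, mzq_T_ne_zero T hT0 hTadd a, fun σ hσ => ?_⟩
  rw [ha σ hσ, ← hTadd, sub_add_cancel, hTeq]

/-- a unit of `A` has valuation `1` -/
theorem mzq_val_unit (A : ValuationSubring Qb) (u : Qb) (hu : u ∈ A) (hui : u⁻¹ ∈ A)
    (hu0 : u ≠ 0) : A.valuation u = 1 := by
  have h1 : A.valuation u ≤ 1 := (A.valuation_le_one_iff u).mpr hu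
  have h2 : A.valuation u⁻¹ ≤ 1 := (A.valuation_le_one_iff u⁻¹).mpr hui
  have h0 : A.valuation u ≠ 0 := (map_ne_zero _).mpr hu0
  rw [map_inv₀] at h2
  refine le_antisymm h1 ?_
  exact (inv_le_one₀ (zero_lt_iff.mpr h0)).mp h2

include hT0 hTadd hTeq in
/-- **the local computation**: if `y` is a Kummer generator of the cocycle `c`
(`σ y = T (c σ) * y`), `y ^ |E| = x ∈ ℚ`, and the class of `c` is a unit class at a place `A | ℓ`,
then `|E| ∣ v_ℓ(x)`. -/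
theorem mzq_loc_dvd [Finite E] (ℓ : ℕ) (hℓ : ℓ.Prime) (A : ValuationSubring Qb)
    (hA : A.LiesOverPrime ℓ) (c : ↥(mzh_Z1 GQ E)) (y : Qb) (hy0 : y ≠ 0)
    (hy : ∀ σ : GQ, σ y = T ((c : GQ → E) σ) * y) (x : ℚ)
    (hx : algebraMap ℚ Qb x = y ^ Nat.card E)
    (hU : mzq_UnitAt T A (mzh_cls GQ E c)) : (Nat.card E : ℤ) ∣ padicValRat ℓ x := by
  have : Fact ℓ.Prime := ⟨hℓ⟩
  obtain ⟨β, hβ, hβi, hβ0, hβσ⟩ := mzq_unitAt_rep T hT0 hTadd hTeq A c hU
  -- `z = y / β` is fixed by inertia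
  have hz : y / β ∈ Fermat.Agent.FF.ffi_L A := by
    rw [Fermat.Agent.FF.ffi_mem_L]
    intro σ hσ
    rw [map_div₀, hy σ, ← hβσ σ hσ]
    exact mul_div_mul_left _ _ (mzq_T_ne_zero T hT0 hTadd _)
  have hz0 : y / β ≠ 0 := div_ne_zero hy0 hβ0
  obtain ⟨n, hn, hni⟩ := Fermat.Agent.FF.ffi_lvi_unit ℓ A hA hz hz0
  have hℓ0 : (ℓ : Qb) ≠ 0 := by exact_mod_cast hℓ.ne_zero
  have hu0 : y / β * (ℓ : Qb) ^ n ≠ 0 := mul_ne_zero hz0 (zpow_ne_zero _ hℓ0)
  have hv1 := mzq_val_unit A _ hn hni hu0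
  have hvβ := mzq_val_unit A β hβ hβi hβ0
  have hvℓ0 : A.valuation (ℓ : Qb) ≠ 0 := (map_ne_zero _).mpr hℓ0
  -- `v(y) = v(ℓ) ^ (-n)`
  have hvy : A.valuation y = A.valuation (ℓ : Qb) ^ (-n) := by
    rw [map_mul, map_div₀, hvβ, div_one, map_zpow₀] at hv1
    rw [zpow_neg]
    exact eq_inv_of_mul_eq_one_left hv1
  have hx0 : x ≠ 0 := by
    rintro rfl
    rw [map_zero] at hx
    exact hy0 (pow_eq_zero_iff (Nat.card_pos (α := E)).ne' |>.mp hx.symm)
  have hvx := Fermat.Agent.S05.ratVal_eq_zpow A hA hℓ hx0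
  have hcast : ((x : ℚ) : Qb) = algebraMap ℚ Qb x := (eq_ratCast (algebraMap ℚ Qb) x).symm
  rw [hcast, hx, map_pow, hvy, ← zpow_natCast, ← zpow_mul] at hvx
  -- injectivity of `n ↦ v(ℓ) ^ n`
  have hlt : A.valuation (ℓ : Qb) < 1 := Fermat.Agent.S05.intVal_prime_lt_one A hA
  have hinj := zpow_right_injective₀ (zero_lt_iff.mpr hvℓ0) hlt.ne hvx
  exact ⟨-n, by rw [← hinj]; ring⟩

end Mu

end Fermat.Agent.MZ
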