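/-
MAZUR / (F6) arithmetic of `ℚ`, the `ℤ/r` half (helper11).  Prefix `mzq_ch_`.

Characters of `G_ℚ` with values in a commutative group, open kernel, unramified outside one prime `p`,
of exponent prime to `p`:

* `mzq_ch_generated`: the image is generated by the image of ONE element of ONE inertia group over `p`
  ("an abelian extension of `ℚ` of degree prime to `p`, unramified outside `p`, is cyclic and totally
  ramified at `p`": Minkowski `g1_char_eq_one` + tame inertia is cyclic `ti_isCyclic_of_trivial_mod`).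
* `mzq_ch_dep`: two `ℤ/r`-valued characters unramified outside `p ≠ r` are linearly dependent.
* `mzq_ch_card_le`: a subgroup of such characters has at most `r` elements.
* `mzq_ch_trivial`: unramified everywhere ⇒ trivial (re-export of `g1_char_eq_one`).
-/
import Fermat.Agent.S55.Places.Local
import Fermat.Agent.S55.LevelFields
import Fermat.Agent.S13.Global.Unramified
import Fermat.Agent.JT3.Algebra.TameInertia

set_option autoImplicit false
set_option linter.style.haveILetI false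
set_option linter.unusedSectionVars false

open NumberField
open scoped Pointwise

namespace Fermat.Agent.MZ

local notation "GQ" => (AlgebraicClosure ℚ ≃ₐ[ℚ] AlgebraicClosure ℚ)
local notation "Qbar" => AlgebraicClosure ℚ

/-- `ψ` is unramified at `ℓ`: trivial on every inertia group over `ℓ`. -/
def mzq_ch_UnrAt {M : Type*} [Group M] (ψ : GQ →* M) (ℓ : ℕ) : Prop :=
  ∀ A : ValuationSubring Qbar, A.LiesOverPrime ℓ → ∀ σ ∈ A.inertiaSubgroupIn ℚ, ψ σ = 1

/-- unramified everywhere ⇒ trivial (Minkowski). -/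
theorem mzq_ch_trivial {M : Type*} [Group M] (ψ : GQ →* M) (hopen : IsOpen (ψ.ker : Set GQ))
    (h : ∀ ℓ : ℕ, ℓ.Prime → mzq_ch_UnrAt ψ ℓ) (σ : GQ) : ψ σ = 1 :=
  Fermat.Agent.S13.g1_char_eq_one ψ hopen (fun ℓ hℓ A hA τ hτ => h ℓ hℓ A hA τ hτ) σ

section faithful

variable (K : IntermediateField ℚ Qbar) [NumberField K]

theorem mzq_ch_faithful : FaithfulSMul (K ≃ₐ[ℚ] K) (𝓞 K) := by
  refine ⟨fun {g h} hgh => ?_⟩
  apply AlgEquiv.ext
  intro x
  obtain ⟨a, b, hb, rfl⟩ := IsFractionRing.div_surjective (A := 𝓞 K) x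
  have ha : g (a : K) = h (a : K) := congrArg (fun y : 𝓞 K => (y : K)) (hgh a)
  have hb' : g (b : K) = h (b : K) := congrArg (fun y : 𝓞 K => (y : K)) (hgh b)
  rw [map_div₀, map_div₀, ha, hb']

end faithful


section main

variable {M : Type*} [CommGroup M] (p : ℕ) (ψ : GQ →* M)

/-- Step 1: the whole image is the image of any one inertia group over `p`. -/
theorem mzq_ch_mem_map_inertia (hp : p.Prime) (hopen : IsOpen (ψ.ker : Set GQ))
    (hunr : ∀ ℓ : ℕ, ℓ.Prime → ℓ ≠ p → mzq_ch_UnrAt ψ ℓ)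
    (A : ValuationSubring Qbar) (hA : A.LiesOverPrime p) (σ : GQ) :
    ψ σ ∈ (A.inertiaSubgroupIn ℚ).map ψ := by
  set J := (A.inertiaSubgroupIn ℚ).map ψ with hJ
  let ψ' : GQ →* M ⧸ J := (QuotientGroup.mk' J).comp ψ
  have hker : ψ.ker ≤ ψ'.ker := fun τ hτ => by
    rw [MonoidHom.mem_ker] at hτ ⊢
    simp [ψ', hτ]
  have hopen' : IsOpen (ψ'.ker : Set GQ) := Subgroup.isOpen_mono hker hopen
  have key : ψ' σ = 1 := by
    refine mzq_ch_trivial ψ' hopen' ?_ σ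
    intro ℓ hℓ A' hA' τ hτ
    by_cases hℓp : ℓ = p
    · subst hℓp
      obtain ⟨ρ, hρ⟩ := Fermat.Agent.S55.pl_exists_smul_eq hℓ hA hA'
      have h1 : ρ⁻¹ * τ * (ρ⁻¹)⁻¹ ∈ (ρ⁻¹ • A').inertiaSubgroupIn ℚ :=
        Fermat.Agent.S55.tl_inertia_conj A' ρ⁻¹ τ hτ
      rw [← hρ, inv_smul_smul] at h1
      have h2 : ψ (ρ⁻¹ * τ * (ρ⁻¹)⁻¹) ∈ J := Subgroup.mem_map_of_mem ψ h1
      have h3 : ψ (ρ⁻¹ * τ * (ρ⁻¹)⁻¹) = ψ τ := by
        rw [inv_inv, map_mul, map_mul, map_inv, mul_comm (ψ ρ)⁻¹, mul_assoc,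
          inv_mul_cancel, mul_one]
      rw [h3] at h2
      show (QuotientGroup.mk' J) (ψ τ) = 1
      rw [QuotientGroup.mk'_apply, QuotientGroup.eq_one_iff]
      exact h2
    · have h1 := hunr ℓ hℓ hℓp A' hA' τ hτ
      show (QuotientGroup.mk' J) (ψ τ) = 1
      rw [h1, map_one]
  have key' : (QuotientGroup.mk' J) (ψ σ) = 1 := key
  rwa [QuotientGroup.mk'_apply, QuotientGroup.eq_one_iff] at key'


/-- Step 2: the image of an inertia group over `p` is cyclic (tame inertia), if the exponent of the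
image of `ψ` is prime to `p`. -/
theorem mzq_ch_inertia_generated (hp : p.Prime) (hopen : IsOpen (ψ.ker : Set GQ))
    (n : ℕ) (hn : n.Coprime p) (hexp : ∀ σ, ψ σ ^ n = 1)
    (A : ValuationSubring Qbar) (hA : A.LiesOverPrime p) :
    ∃ σ₀ ∈ A.inertiaSubgroupIn ℚ, ∀ σ ∈ A.inertiaSubgroupIn ℚ, ∃ k : ℤ, ψ σ = ψ σ₀ ^ k := by
  haveI : ψ.ker.Normal := MonoidHom.normal_ker ψ
  set K := IntermediateField.fixedField ψ.ker with hK
  haveI hfd : FiniteDimensional ℚ K :=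
    Fermat.Agent.S14.Reduction.finiteDimensional_fixedField ψ.ker hopen
  haveI hgal : IsGalois ℚ K := Fermat.Agent.S14.Reduction.isGalois_fixedField ψ.ker hopen
  haveI : NumberField K := { to_charZero := inferInstance, to_finiteDimensional := hfd }
  have hfix : K.fixingSubgroup = ψ.ker :=
    Fermat.Agent.S14.Reduction.fixingSubgroup_fixedField_of_isOpen ψ.ker hopen
  have hkerres : (AlgEquiv.restrictNormalHom (F := ℚ) (K₁ := Qbar) K).ker = ψ.ker := by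
    rw [Fermat.Agent.S14.Reduction.ker_restrictNormalHom, hfix]
  set P := Fermat.Agent.S55.pl_ideal K A with hP
  set I := P.toAddSubgroup.inertia (K ≃ₐ[ℚ] K) with hI
  have hmap : (A.inertiaSubgroupIn ℚ).map (AlgEquiv.restrictNormalHom K) = I :=
    Fermat.Agent.S55.pl_map_inertia K A hp hA
  -- the exponent of `I` divides `n`
  have hexpI : ∀ g : I, g ^ n = 1 := by
    rintro ⟨g, hg⟩
    rw [← hmap] at hg
    obtain ⟨σ, -, rfl⟩ := hg
    apply Subtype.ext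
    rw [Subgroup.coe_pow, Subgroup.coe_one]
    show (AlgEquiv.restrictNormalHom K σ) ^ n = 1
    rw [← map_pow, ← MonoidHom.mem_ker, hkerres, MonoidHom.mem_ker, map_pow]
    exact hexp σ
  have hcard : ¬ p ∣ Nat.card I := by
    intro hdvd
    haveI : Fact p.Prime := ⟨hp⟩
    obtain ⟨g, hg⟩ := exists_prime_orderOf_dvd_card' p hdvd
    have h1 := orderOf_dvd_of_pow_eq_one (hexpI g)
    rw [hg] at h1
    exact (Nat.Prime.coprime_iff_not_dvd hp).mp hn.symm h1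
  have hnotin : ((Nat.card I : ℕ) : 𝓞 K) ∉ P := by
    intro hmem
    have hpmem : ((p : ℕ) : 𝓞 K) ∈ P := Fermat.Agent.S55.pl_natCast_mem_ideal K A hA
    have hcop : Nat.Coprime (Nat.card I) p :=
      ((Nat.Prime.coprime_iff_not_dvd hp).mpr hcard).symm
    obtain ⟨a, b, hab⟩ : IsCoprime ((Nat.card I : ℕ) : ℤ) ((p : ℕ) : ℤ) :=
      Nat.isCoprime_iff_coprime.mpr hcop
    have h1 : (1 : 𝓞 K) ∈ P := by
      have h2 : ((a * ((Nat.card I : ℕ) : ℤ) + b * ((p : ℕ) : ℤ) : ℤ) : 𝓞 K) = 1 := by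
        rw [hab]; simp
      rw [← h2]
      push_cast
      exact P.add_mem (P.mul_mem_left _ hmem) (P.mul_mem_left _ hpmem)
    exact (Ideal.IsPrime.ne_top inferInstance) ((Ideal.eq_top_iff_one P).mpr h1)
  haveI := mzq_ch_faithful K
  haveI : FaithfulSMul I (𝓞 K) :=
    ⟨fun {g h} hgh => Subtype.ext (FaithfulSMul.eq_of_smul_eq_smul (α := 𝓞 K) (fun x => hgh x))⟩
  have hcyc : IsCyclic I :=
    Fermat.Agent.JT3.ti_isCyclic_of_trivial_mod P (Fermat.Agent.S55.pl_ideal_ne_bot K A hp hA)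
      (I := I) (fun σ x => σ.2 x) hnotin
  obtain ⟨g₀, hg₀⟩ := hcyc.exists_generator
  have hg₀mem : (g₀ : K ≃ₐ[ℚ] K) ∈ (A.inertiaSubgroupIn ℚ).map (AlgEquiv.restrictNormalHom K) := by
    rw [hmap]; exact g₀.2
  obtain ⟨σ₀, hσ₀, hres⟩ := hg₀mem
  refine ⟨σ₀, hσ₀, fun σ hσ => ?_⟩
  have hσI : AlgEquiv.restrictNormalHom K σ ∈ I := by
    rw [← hmap]; exact Subgroup.mem_map_of_mem _ hσ
  obtain ⟨k, hk⟩ := Subgroup.mem_zpowers_iff.mp (hg₀ ⟨_, hσI⟩)
  refine ⟨k, ?_⟩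
  have h1 : AlgEquiv.restrictNormalHom K (σ₀ ^ k) = AlgEquiv.restrictNormalHom K σ := by
    rw [map_zpow, hres]
    have := congrArg Subtype.val hk
    rwa [Subgroup.coe_zpow] at this
  have h2 : σ₀ ^ k * σ⁻¹ ∈ ψ.ker := by
    rw [← hkerres, MonoidHom.mem_ker, map_mul, map_inv, h1, mul_inv_cancel]
  rw [MonoidHom.mem_ker, map_mul, map_inv, map_zpow, mul_inv_eq_one] at h2
  exact h2.symm

/-- **Abelian, unramified outside `p`, exponent prime to `p` ⇒ generated by one inertia element.** -/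
theorem mzq_ch_generated (hp : p.Prime) (hopen : IsOpen (ψ.ker : Set GQ))
    (hunr : ∀ ℓ : ℕ, ℓ.Prime → ℓ ≠ p → mzq_ch_UnrAt ψ ℓ)
    (n : ℕ) (hn : n.Coprime p) (hexp : ∀ σ, ψ σ ^ n = 1)
    (A : ValuationSubring Qbar) (hA : A.LiesOverPrime p) :
    ∃ σ₀ ∈ A.inertiaSubgroupIn ℚ, ∀ σ : GQ, ∃ k : ℤ, ψ σ = ψ σ₀ ^ k := by
  obtain ⟨σ₀, hσ₀, hgen⟩ := mzq_ch_inertia_generated p ψ hp hopen n hn hexp A hA
  refine ⟨σ₀, hσ₀, fun σ => ?_⟩
  obtain ⟨τ, hτ, hτσ⟩ := mzq_ch_mem_map_inertia p ψ hp hopen hunr A hA σ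
  obtain ⟨k, hk⟩ := hgen τ hτ
  exact ⟨k, by rw [← hτσ, hk]⟩

end main

section zmod

variable (p r : ℕ) [Fact r.Prime]

/-- the conditions on a `ℤ/r`-valued character: open kernel, unramified outside `p`. -/
def mzq_ch_Adm (χ : GQ →* Multiplicative (ZMod r)) : Prop :=
  IsOpen (χ.ker : Set GQ) ∧ ∀ ℓ : ℕ, ℓ.Prime → ℓ ≠ p → mzq_ch_UnrAt χ ℓ

theorem mzq_ch_pow_r (x : Multiplicative (ZMod r)) : x ^ r = 1 := by
  have h : (r : ℕ) • (Multiplicative.toAdd x) = 0 := by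
    rw [nsmul_eq_mul, ZMod.natCast_self, zero_mul]
  exact h

/-- two admissible characters: both are powers of one and the same pair of values. -/
theorem mzq_ch_pair (hp : p.Prime) (hrp : r ≠ p) (χ₁ χ₂ : GQ →* Multiplicative (ZMod r))
    (h₁ : mzq_ch_Adm p r χ₁) (h₂ : mzq_ch_Adm p r χ₂) :
    ∃ u v : Multiplicative (ZMod r), ∀ σ : GQ, ∃ k : ℤ, χ₁ σ = u ^ k ∧ χ₂ σ = v ^ k := by
  have hr : r.Prime := Fact.out
  haveI : Fact p.Prime := ⟨hp⟩
  let ψ : GQ →* Multiplicative (ZMod r) × Multiplicative (ZMod r) := χ₁.prod χ₂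
  have hker : (ψ.ker : Set GQ) = (χ₁.ker : Set GQ) ∩ (χ₂.ker : Set GQ) := by
    ext σ
    simp only [SetLike.mem_coe, MonoidHom.mem_ker, Set.mem_inter_iff, ψ, MonoidHom.prod_apply,
      Prod.mk_eq_one]
  have hopen : IsOpen (ψ.ker : Set GQ) := by
    rw [hker]; exact h₁.1.inter h₂.1
  have hunr : ∀ ℓ : ℕ, ℓ.Prime → ℓ ≠ p → mzq_ch_UnrAt ψ ℓ := by
    intro ℓ hℓ hℓp A hA σ hσ
    show (χ₁ σ, χ₂ σ) = 1
    rw [h₁.2 ℓ hℓ hℓp A hA σ hσ, h₂.2 ℓ hℓ hℓp A hA σ hσ]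
    rfl
  have hexp : ∀ σ, ψ σ ^ r = 1 := by
    intro σ
    show (χ₁ σ, χ₂ σ) ^ r = 1
    rw [Prod.pow_mk, mzq_ch_pow_r, mzq_ch_pow_r]
    rfl
  have hcop : r.Coprime p := (Nat.coprime_primes hr hp).mpr hrp
  obtain ⟨σ₀, -, hgen⟩ := mzq_ch_generated p ψ hp hopen hunr r hcop hexp
    (padicPlace p) (Fermat.Agent.S55.pl_padicPlace_liesOver p)
  refine ⟨χ₁ σ₀, χ₂ σ₀, fun σ => ?_⟩
  obtain ⟨k, hk⟩ := hgen σ
  refine ⟨k, ?_, ?_⟩
  · have := congrArg Prod.fst hk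
    simpa [ψ] using this
  · have := congrArg Prod.snd hk
    simpa [ψ] using this


theorem mzq_ch_eq_one_of_zpow (x : Multiplicative (ZMod r)) (k : ℤ) (hk : ¬ (r : ℤ) ∣ k)
    (h : x ^ k = 1) : x = 1 := by
  have hr : r.Prime := Fact.out
  have hcop : IsCoprime k (r : ℤ) := by
    have hpr : Prime (r : ℤ) := Nat.prime_iff_prime_int.mp hr
    exact (hpr.coprime_iff_not_dvd.mpr hk).symm
  obtain ⟨a, b, hab⟩ := hcop
  have h1 : x ^ (a * k + b * (r : ℤ)) = x := by rw [hab, zpow_one]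
  have h2 : x ^ (r : ℤ) = 1 := by rw [zpow_natCast]; exact mzq_ch_pow_r r x
  rw [zpow_add, mul_comm a k, zpow_mul, h, one_zpow, one_mul, mul_comm b, zpow_mul, h2,
    one_zpow] at h1
  exact h1.symm

/-- **(F6), `ℤ/r` bad**: a group of characters `G_ℚ → ℤ/r` with open kernels, unramified outside
`p ≠ r`, has at most `r` elements. -/
theorem mzq_ch_card_le (hp : p.Prime) (hrp : r ≠ p)
    (L : Subgroup (GQ →* Multiplicative (ZMod r))) (hL : ∀ χ ∈ L, mzq_ch_Adm p r χ) :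
    Finite L ∧ Nat.card L ≤ r := by
  by_cases hbot : ∀ χ ∈ L, χ = 1
  · have hsub : Subsingleton L := ⟨fun a b => Subtype.ext ((hbot a a.2).trans (hbot b b.2).symm)⟩
    refine ⟨inferInstance, ?_⟩
    rw [Nat.card_unique]
    exact (Fact.out : r.Prime).one_le
  · push Not at hbot
    obtain ⟨χ₁, hχ₁, hne⟩ := hbot
    obtain ⟨σ₁, hσ₁⟩ : ∃ σ₁, χ₁ σ₁ ≠ 1 := by
      by_contra hcon
      push Not at hcon
      exact hne (MonoidHom.ext hcon)
    let ev : L →* Multiplicative (ZMod r) :=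
      { toFun := fun χ => (χ : GQ →* Multiplicative (ZMod r)) σ₁
        map_one' := rfl
        map_mul' := fun _ _ => rfl }
    have hinj : Function.Injective ev := by
      rw [injective_iff_map_eq_one]
      rintro ⟨χ, hχ⟩ hev
      have hev' : χ σ₁ = 1 := hev
      obtain ⟨u, v, huv⟩ := mzq_ch_pair p r hp hrp χ₁ χ (hL χ₁ hχ₁) (hL χ hχ)
      obtain ⟨k, hk1, hk2⟩ := huv σ₁
      have hrk : ¬ (r : ℤ) ∣ k := by
        rintro ⟨m, rfl⟩
        apply hσ₁
        rw [hk1, zpow_mul, zpow_natCast, mzq_ch_pow_r, one_zpow]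
      have hv : v = 1 := mzq_ch_eq_one_of_zpow r v k hrk (by rw [← hk2, hev'])
      apply Subtype.ext
      apply MonoidHom.ext
      intro σ
      obtain ⟨k', -, hk'⟩ := huv σ
      show χ σ = 1
      rw [hk', hv, one_zpow]
    haveI : Finite (Multiplicative (ZMod r)) := inferInstanceAs (Finite (ZMod r))
    refine ⟨Finite.of_injective ev hinj, ?_⟩
    have h1 := Nat.card_le_card_of_injective ev hinj
    have h2 : Nat.card (Multiplicative (ZMod r)) = r := by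
      show Nat.card (ZMod r) = r
      rw [Nat.card_eq_fintype_card, ZMod.card]
    rwa [h2] at h1

/-- **(F6), `ℤ/r` good**: unramified everywhere ⇒ trivial. -/
theorem mzq_ch_adm_trivial (χ : GQ →* Multiplicative (ZMod r)) (h : mzq_ch_Adm p r χ)
    (hp : mzq_ch_UnrAt χ p) (σ : GQ) : χ σ = 1 := by
  refine mzq_ch_trivial χ h.1 (fun ℓ hℓ => ?_) σ
  by_cases hℓp : ℓ = p
  · rw [hℓp]; exact hp
  · exact h.2 ℓ hℓ hℓp

end zmod

end Fermat.Agent.MZ
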