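/-
MAZUR / (F6) arithmetic of `ℚ`, the `ℤ/r` half (helper11): THE TWO `ℤ/r` LEAVES of the descent
`mzh_descent_gen` (`MZ/H/InductGen.lean`), in the cohomological vocabulary of `[MZ-H]`.
Prefix `mzq_ch_`.

`W` a `G_ℚ`-module with TRIVIAL action and `Nat.card W = r` prime, `r ≠ p`;
`L ≤ H¹(G_ℚ, W)` a subgroup of continuous classes (`L ≤ mzd_H1cts`) unramified outside `p`
(`mzh_H1resSub (A.inertiaSubgroupIn ℚ) x = 0` for every place `A` over `ℓ ≠ p`). Then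

* `mzq_ch_leaf_bad`  : `L` is finite and `|L| ≤ r`;
* `mzq_ch_leaf_good` : if moreover `L` dies on ONE inertia group `I = I_{A₀}` over `p`, then `L = ⊥`;
* `mzq_ch_leaf_bad_le`, `mzq_ch_leaf_good_le` : the two inequalities of `mzh_HasStep`, verbatim,
  for any weight `z ≤ r`.
-/
import Fermat.Agent.MZ.Q.Char
import Fermat.Agent.MZ.H.Cts

set_option autoImplicit false
set_option linter.style.haveILetI false
set_option linter.unusedSectionVars false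

namespace Fermat.Agent.MZ

local notation "GQ" => (AlgebraicClosure ℚ ≃ₐ[ℚ] AlgebraicClosure ℚ)
local notation "Qbar" => AlgebraicClosure ℚ

section general

variable {M : Type*} [CommGroup M] (p r : ℕ)

/-- the conditions on an `M`-valued character: open kernel, unramified outside `p`. -/
def mzq_ch_AdmG (χ : GQ →* M) : Prop :=
  IsOpen (χ.ker : Set GQ) ∧ ∀ ℓ : ℕ, ℓ.Prime → ℓ ≠ p → mzq_ch_UnrAt χ ℓ

/-- two admissible characters into a group of exponent `r ≠ p`: both are powers of one and the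
same pair of values. -/
theorem mzq_ch_pairG (hp : p.Prime) (hr : r.Prime) (hrp : r ≠ p) (hM : ∀ x : M, x ^ r = 1)
    (χ₁ χ₂ : GQ →* M) (h₁ : mzq_ch_AdmG p χ₁) (h₂ : mzq_ch_AdmG p χ₂) :
    ∃ u v : M, ∀ σ : GQ, ∃ k : ℤ, χ₁ σ = u ^ k ∧ χ₂ σ = v ^ k := by
  haveI : Fact p.Prime := ⟨hp⟩
  let ψ : GQ →* M × M := χ₁.prod χ₂
  have hker : (ψ.ker : Set GQ) = (χ₁.ker : Set GQ) ∩ (χ₂.ker : Set GQ) := by
    ext σ
    simp only [SetLike.mem_coe, MonoidHom.mem_ker, Set.mem_inter_iff, ψ, MonoidHom.prod_apply,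
      Prod.mk_eq_one]
  have hopen : IsOpen (ψ.ker : Set GQ) := by
    rw [hker]; exact h₁.1.inter h₂.1
  have hunr : ∀ ℓ : ℕ, ℓ.Prime → ℓ ≠ p → mzq_ch_UnrAt ψ ℓ := by
    intro ℓ hℓ hℓp A hA σ hσ
    show (χ₁ σ, χ₂ σ) = 1
    rw [h₁.2 ℓ hℓ hℓp A hA σ hσ, h₂.2 ℓ hℓ hℓp A hA σ hσ]
    rfl
  have hexp : ∀ σ, ψ σ ^ r = 1 := by
    intro σ
    show (χ₁ σ, χ₂ σ) ^ r = 1
    rw [Prod.pow_mk, hM, hM]
    rfl
  have hcop : r.Coprime p := (Nat.coprime_primes hr hp).mpr hrp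
  obtain ⟨σ₀, -, hgen⟩ := mzq_ch_generated p ψ hp hopen hunr r hcop hexp
    (padicPlace p) (Fermat.Agent.S55.pl_padicPlace_liesOver p)
  refine ⟨χ₁ σ₀, χ₂ σ₀, fun σ => ?_⟩
  obtain ⟨k, hk⟩ := hgen σ
  refine ⟨k, ?_, ?_⟩
  · have := congrArg Prod.fst hk
    simpa [ψ] using this
  · have := congrArg Prod.snd hk
    simpa [ψ] using this

theorem mzq_ch_eq_one_of_zpowG (hr : r.Prime) (x : M) (hx : x ^ r = 1) (k : ℤ)
    (hk : ¬ (r : ℤ) ∣ k) (h : x ^ k = 1) : x = 1 := by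
  have hcop : IsCoprime k (r : ℤ) := by
    have hpr : Prime (r : ℤ) := Nat.prime_iff_prime_int.mp hr
    exact (hpr.coprime_iff_not_dvd.mpr hk).symm
  obtain ⟨a, b, hab⟩ := hcop
  have h1 : x ^ (a * k + b * (r : ℤ)) = x := by rw [hab, zpow_one]
  have h2 : x ^ (r : ℤ) = 1 := by rw [zpow_natCast]; exact hx
  rw [zpow_add, mul_comm a k, zpow_mul, h, one_zpow, one_mul, mul_comm b, zpow_mul, h2,
    one_zpow] at h1
  exact h1.symm

/-- evaluation at a point where one admissible character is non-trivial detects triviality of any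
other admissible character -/
theorem mzq_ch_ev_detects (hp : p.Prime) (hr : r.Prime) (hrp : r ≠ p) (hM : ∀ x : M, x ^ r = 1)
    (χ₁ χ : GQ →* M) (h₁ : mzq_ch_AdmG p χ₁) (h : mzq_ch_AdmG p χ) (σ₁ : GQ)
    (hσ₁ : χ₁ σ₁ ≠ 1) (hev : χ σ₁ = 1) : χ = 1 := by
  obtain ⟨u, v, huv⟩ := mzq_ch_pairG p r hp hr hrp hM χ₁ χ h₁ h
  obtain ⟨k, hk1, hk2⟩ := huv σ₁
  have hrk : ¬ (r : ℤ) ∣ k := by
    rintro ⟨m, rfl⟩
    apply hσ₁
    rw [hk1, zpow_mul, zpow_natCast, hM, one_zpow]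
  have hv : v = 1 := mzq_ch_eq_one_of_zpowG r hr v (hM v) k hrk (by rw [← hk2, hev])
  apply MonoidHom.ext
  intro σ
  obtain ⟨k', -, hk'⟩ := huv σ
  show χ σ = 1
  rw [hk', hv, one_zpow]

/-- an admissible character which is trivial on ONE inertia group over `p` is trivial -/
theorem mzq_ch_adm_trivialG (hp : p.Prime) (hr : r.Prime) (hrp : r ≠ p) (hM : ∀ x : M, x ^ r = 1)
    (χ : GQ →* M) (h : mzq_ch_AdmG p χ) (A₀ : ValuationSubring Qbar) (hA₀ : A₀.LiesOverPrime p)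
    (h0 : ∀ σ ∈ A₀.inertiaSubgroupIn ℚ, χ σ = 1) : χ = 1 := by
  have hcop : r.Coprime p := (Nat.coprime_primes hr hp).mpr hrp
  obtain ⟨σ₀, hσ₀, hgen⟩ := mzq_ch_generated p χ hp h.1 h.2 r hcop (fun σ => hM _) A₀ hA₀
  apply MonoidHom.ext
  intro σ
  obtain ⟨k, hk⟩ := hgen σ
  show χ σ = 1
  rw [hk, h0 σ₀ hσ₀, one_zpow]

end general

section leaf

variable {W : Type*} [AddCommGroup W] [DistribMulAction GQ W] (p r : ℕ)

/-- a class of `H¹(G_ℚ, W)` is unramified at `ℓ`: it dies on every inertia group over `ℓ` -/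
def mzq_ch_H1UnrAt (x : mzh_H1 GQ W) (ℓ : ℕ) : Prop :=
  ∀ A : ValuationSubring Qbar, A.LiesOverPrime ℓ → mzh_H1resSub (A.inertiaSubgroupIn ℚ) x = 0

theorem mzq_ch_leaf_adm (htriv : ∀ (σ : GQ) (a : W), σ • a = a) (x : mzh_H1 GQ W)
    (hcts : x ∈ mzd_H1cts GQ W)
    (hunr : ∀ ℓ : ℕ, ℓ.Prime → ℓ ≠ p → mzq_ch_H1UnrAt x ℓ) :
    mzq_ch_AdmG p (mzd_char htriv x) := by
  refine ⟨(mzd_mem_H1cts_iff_char htriv x).mp hcts, fun ℓ hℓ hℓp A hA σ hσ => ?_⟩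
  exact (mzd_resSub_eq_zero_iff_char htriv _ x).mp (hunr ℓ hℓ hℓp A hA) σ hσ

theorem mzq_ch_leaf_exp (hW : Nat.card W = r) (x : Multiplicative W) : x ^ r = 1 := by
  have h : Nat.card (Multiplicative W) = r := hW
  rw [← h]
  exact pow_card_eq_one'

theorem mzq_ch_char_sub (htriv : ∀ (σ : GQ) (a : W), σ • a = a) (x y : mzh_H1 GQ W) :
    mzd_char htriv (x - y) * mzd_char htriv y = mzd_char htriv x := by
  rw [← mzd_char_add, sub_add_cancel]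

/-- **(F6), `ℤ/r` leaf, BAD bound**: a group of continuous classes in `H¹(G_ℚ, W)`, `W` trivial of
prime order `r ≠ p`, unramified outside `p`, is finite with at most `r` elements. -/
theorem mzq_ch_leaf_bad (htriv : ∀ (σ : GQ) (a : W), σ • a = a) (hp : p.Prime)
    (hr : r.Prime) (hrp : r ≠ p) (hW : Nat.card W = r)
    (L : AddSubgroup (mzh_H1 GQ W)) (hcts : L ≤ mzd_H1cts GQ W)
    (hunr : ∀ x ∈ L, ∀ ℓ : ℕ, ℓ.Prime → ℓ ≠ p → mzq_ch_H1UnrAt x ℓ) :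
    Finite ↥L ∧ Nat.card ↥L ≤ r := by
  have hM := mzq_ch_leaf_exp (W := W) r hW
  have hadm : ∀ x ∈ L, mzq_ch_AdmG p (mzd_char htriv x) := fun x hx =>
    mzq_ch_leaf_adm p htriv x (hcts hx) (hunr x hx)
  haveI : Finite W := Nat.finite_of_card_ne_zero (by rw [hW]; exact hr.ne_zero)
  by_cases hbot : ∀ x ∈ L, x = 0
  · have hsub : Subsingleton ↥L :=
      ⟨fun a b => Subtype.ext ((hbot a a.2).trans (hbot b b.2).symm)⟩
    refine ⟨inferInstance, ?_⟩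
    rw [Nat.card_unique]
    exact hr.one_le
  · push Not at hbot
    obtain ⟨x₁, hx₁, hne⟩ := hbot
    obtain ⟨σ₁, hσ₁⟩ : ∃ σ₁, mzd_char htriv x₁ σ₁ ≠ 1 := by
      by_contra hcon
      push Not at hcon
      exact hne ((mzd_char_eq_one_iff htriv x₁).mp (MonoidHom.ext hcon))
    let ev : ↥L → Multiplicative W := fun x => mzd_char htriv (x : mzh_H1 GQ W) σ₁
    have hinj : Function.Injective ev := by
      intro x y hxy
      have hxy' : mzd_char htriv (x : mzh_H1 GQ W) σ₁ = mzd_char htriv (y : mzh_H1 GQ W) σ₁ := hxy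
      have hd : mzd_char htriv ((x : mzh_H1 GQ W) - y) σ₁ = 1 := by
        have h1 := DFunLike.congr_fun (mzq_ch_char_sub htriv (x : mzh_H1 GQ W) y) σ₁
        rw [MonoidHom.mul_apply, hxy'] at h1
        exact mul_eq_right.mp h1
      have hmem : (x : mzh_H1 GQ W) - y ∈ L := L.sub_mem x.2 y.2
      have h1 := mzq_ch_ev_detects p r hp hr hrp hM _ _ (hadm x₁ hx₁) (hadm _ hmem) σ₁ hσ₁ hd
      have h2 := (mzd_char_eq_one_iff htriv _).mp h1
      exact Subtype.ext (sub_eq_zero.mp h2)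
    haveI : Finite (Multiplicative W) := inferInstanceAs (Finite W)
    refine ⟨Finite.of_injective ev hinj, ?_⟩
    have h1 := Nat.card_le_card_of_injective ev hinj
    have h2 : Nat.card (Multiplicative W) = r := hW
    rwa [h2] at h1

/-- **(F6), `ℤ/r` leaf, GOOD bound**: if moreover the classes die on ONE inertia group over `p`,
the group is trivial. -/
theorem mzq_ch_leaf_good (htriv : ∀ (σ : GQ) (a : W), σ • a = a) (hp : p.Prime)
    (hr : r.Prime) (hrp : r ≠ p) (hW : Nat.card W = r)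
    (L : AddSubgroup (mzh_H1 GQ W)) (hcts : L ≤ mzd_H1cts GQ W)
    (hunr : ∀ x ∈ L, ∀ ℓ : ℕ, ℓ.Prime → ℓ ≠ p → mzq_ch_H1UnrAt x ℓ)
    (A₀ : ValuationSubring Qbar) (hA₀ : A₀.LiesOverPrime p)
    (hgood : L ≤ (mzh_H1resSub (A := W) (A₀.inertiaSubgroupIn ℚ)).ker) : L = ⊥ := by
  have hM := mzq_ch_leaf_exp (W := W) r hW
  rw [eq_bot_iff]
  intro x hx
  rw [AddSubgroup.mem_bot]
  have hadm := mzq_ch_leaf_adm p htriv x (hcts hx) (hunr x hx)
  have h0 := (mzd_mem_ker_resSub_iff htriv _ x).mp (hgood hx)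
  exact (mzd_char_eq_one_iff htriv x).mp
    (mzq_ch_adm_trivialG p r hp hr hrp hM _ hadm A₀ hA₀ h0)

theorem mzq_ch_card_H0_sub (htriv : ∀ (σ : GQ) (a : W), σ • a = a) (I : Subgroup GQ) :
    Nat.card ↥(mzh_H0 ↥I W) = Nat.card W := by
  have h : mzh_H0 ↥I W = ⊤ := mzd_H0_triv (fun σ a => htriv (σ : GQ) a)
  rw [h]
  exact Nat.card_congr AddSubgroup.topEquiv.toEquiv

theorem mzq_ch_card_H0 (htriv : ∀ (σ : GQ) (a : W), σ • a = a) :
    Nat.card ↥(mzh_H0 GQ W) = Nat.card W := by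
  rw [mzd_H0_triv htriv]
  exact Nat.card_congr AddSubgroup.topEquiv.toEquiv

/-- the BAD inequality of `mzh_HasStep`, verbatim (any weight `z ≤ r`, any subgroup `I`). -/
theorem mzq_ch_leaf_bad_le (htriv : ∀ (σ : GQ) (a : W), σ • a = a) (hp : p.Prime)
    (hr : r.Prime) (hrp : r ≠ p) (hW : Nat.card W = r)
    (L : AddSubgroup (mzh_H1 GQ W)) (hcts : L ≤ mzd_H1cts GQ W)
    (hunr : ∀ x ∈ L, ∀ ℓ : ℕ, ℓ.Prime → ℓ ≠ p → mzq_ch_H1UnrAt x ℓ)
    (I : Subgroup GQ) (z : ℕ) (hz : z ≤ r) :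
    Nat.card ↥L * z * Nat.card ↥(mzh_H0 ↥I W) ≤
      Nat.card ↥(mzh_H0 GQ W) * Nat.card W * r := by
  obtain ⟨-, hle⟩ := mzq_ch_leaf_bad p r htriv hp hr hrp hW L hcts hunr
  rw [mzq_ch_card_H0_sub htriv I, mzq_ch_card_H0 htriv, hW]
  calc Nat.card ↥L * z * r ≤ r * r * r :=
    Nat.mul_le_mul_right _ (Nat.mul_le_mul hle hz)

/-- the GOOD inequality of `mzh_HasStep`, verbatim (any weight `z ≤ r`), `I` an inertia group
over `p`. -/
theorem mzq_ch_leaf_good_le (htriv : ∀ (σ : GQ) (a : W), σ • a = a) (hp : p.Prime)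
    (hr : r.Prime) (hrp : r ≠ p) (hW : Nat.card W = r)
    (L : AddSubgroup (mzh_H1 GQ W)) (hcts : L ≤ mzd_H1cts GQ W)
    (hunr : ∀ x ∈ L, ∀ ℓ : ℕ, ℓ.Prime → ℓ ≠ p → mzq_ch_H1UnrAt x ℓ)
    (A₀ : ValuationSubring Qbar) (hA₀ : A₀.LiesOverPrime p) (z : ℕ) (hz : z ≤ r)
    (hgood : L ≤ (mzh_H1resSub (A := W) (A₀.inertiaSubgroupIn ℚ)).ker) :
    Nat.card ↥L * z * Nat.card ↥(mzh_H0 ↥(A₀.inertiaSubgroupIn ℚ) W) ≤
      Nat.card ↥(mzh_H0 GQ W) * Nat.card W := by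
  have hbot := mzq_ch_leaf_good p r htriv hp hr hrp hW L hcts hunr A₀ hA₀ hgood
  rw [mzq_ch_card_H0_sub htriv _, mzq_ch_card_H0 htriv, hW, hbot]
  have h1 : Nat.card ↥(⊥ : AddSubgroup (mzh_H1 GQ W)) = 1 := Nat.card_unique
  rw [h1, one_mul]
  exact Nat.mul_le_mul_right _ hz

end leaf

end Fermat.Agent.MZ
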