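/-
MAZUR / (F6) arithmetic of `ℚ`, the `ℤ/r` half (helper11): the TRIV LEAF SEAM of `[F-DESC]`
(helper9, finding #2934) verbatim: ONE place per prime, continuity in the finite-level form.
Prefix `mzq_ch_`.

* `mzq_ch_cont_mem_H1cts` : a class with a representative vanishing on `K.fixingSubgroup`,
  `[K : ℚ] < ∞`, lies in `mzd_H1cts`;
* `mzq_ch_unr_conj` : for a TRIVIAL module, unramified at one place over `ℓ` ⟹ unramified at all
  places over `ℓ` (characters are conjugation invariant);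
* `mzq_ch_leaf_triv_seam` : the seam.
-/
import Fermat.Agent.MZ.Q.LeafTriv
import Fermat.Agent.S55.Places.Basic

set_option autoImplicit false
set_option linter.style.haveILetI false
set_option linter.unusedSectionVars false

open scoped Pointwise

namespace Fermat.Agent.MZ

local notation "GQ" => (AlgebraicClosure ℚ ≃ₐ[ℚ] AlgebraicClosure ℚ)
local notation "Qbar" => AlgebraicClosure ℚ

variable {E : Type*} [AddCommGroup E] [DistribMulAction GQ E]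

/-- finite-level continuity ⟹ `mzd_H1cts` -/
theorem mzq_ch_cont_mem_H1cts (x : mzh_H1 GQ E)
    (h : ∃ c : ↥(mzh_Z1 GQ E), mzh_cls GQ E c = x ∧ ∃ K : IntermediateField ℚ Qbar,
      FiniteDimensional ℚ K ∧ ∀ σ ∈ K.fixingSubgroup, (c : GQ → E) σ = 0) :
    x ∈ mzd_H1cts GQ E := by
  obtain ⟨c, rfl, K, hK, hc⟩ := h
  haveI := hK
  exact mzd_cls_mem_H1cts ((mzd_isLC_iff_vanish c).mpr
    ⟨K.fixingSubgroup, K.fixingSubgroup_isOpen, hc⟩)

/-- for a trivial module: unramified at one place over `ℓ` ⟹ unramified at every place over `ℓ` -/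
theorem mzq_ch_unr_conj (htriv : ∀ (σ : GQ) (a : E), σ • a = a) (x : mzh_H1 GQ E) {ℓ : ℕ}
    (hℓ : ℓ.Prime) (A : ValuationSubring Qbar) (hA : A.LiesOverPrime ℓ)
    (hx : mzh_H1resSub (A.inertiaSubgroupIn ℚ) x = 0) : mzq_ch_H1UnrAt x ℓ := by
  intro A' hA'
  rw [mzd_resSub_eq_zero_iff_char htriv] at hx ⊢
  obtain ⟨τ, hτ⟩ := Fermat.Agent.S55.pl_exists_smul_eq hℓ hA hA'
  intro σ' hσ'
  have h1 : τ⁻¹ * σ' * (τ⁻¹)⁻¹ ∈ (τ⁻¹ • A').inertiaSubgroupIn ℚ :=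
    Fermat.Agent.S55.tl_inertia_conj A' τ⁻¹ σ' hσ'
  have h2 : τ⁻¹ • A' = A := by rw [← hτ, inv_smul_smul]
  rw [h2] at h1
  have h3 := hx _ h1
  rw [map_mul, map_mul, map_inv, inv_inv, mul_comm, ← mul_assoc, mul_inv_cancel, one_mul] at h3
  exact h3

/-- **The TRIV leaf seam of `[F-DESC]`.** -/
theorem mzq_ch_leaf_triv_seam (p r : ℕ) (htriv : ∀ (σ : GQ) (a : E), σ • a = a) (hp : p.Prime)
    (hr : r.Prime) (hrp : r ≠ p) (hE : Nat.card E = r)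
    (A_p : ValuationSubring Qbar) (hA_p : A_p.LiesOverPrime p)
    (L : AddSubgroup (mzh_H1 GQ E))
    (hL : ∀ x ∈ L,
      (∃ c : ↥(mzh_Z1 GQ E), mzh_cls GQ E c = x ∧ ∃ K : IntermediateField ℚ Qbar,
        FiniteDimensional ℚ K ∧ ∀ σ ∈ K.fixingSubgroup, (c : GQ → E) σ = 0) ∧
      ∀ ℓ : ℕ, ℓ.Prime → ℓ ≠ p → ∃ A : ValuationSubring Qbar, A.LiesOverPrime ℓ ∧
        mzh_H1resSub (A.inertiaSubgroupIn ℚ) x = 0) :
    Finite ↥L ∧ Nat.card ↥L ≤ r ∧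
      ((∀ x ∈ L, mzh_H1resSub (A_p.inertiaSubgroupIn ℚ) x = 0) → Nat.card ↥L ≤ 1) := by
  have hcts : L ≤ mzd_H1cts GQ E := fun x hx => mzq_ch_cont_mem_H1cts x (hL x hx).1
  have hunr : ∀ x ∈ L, ∀ ℓ : ℕ, ℓ.Prime → ℓ ≠ p → mzq_ch_H1UnrAt x ℓ := by
    intro x hx ℓ hℓ hℓp
    obtain ⟨A, hA, hxA⟩ := (hL x hx).2 ℓ hℓ hℓp
    exact mzq_ch_unr_conj htriv x hℓ A hA hxA
  obtain ⟨hfin, hle⟩ := mzq_ch_leaf_bad p r htriv hp hr hrp hE L hcts hunr
  refine ⟨hfin, hle, fun hgood => ?_⟩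
  have hbot := mzq_ch_leaf_good p r htriv hp hr hrp hE L hcts hunr A_p hA_p
    (fun x hx => (AddMonoidHom.mem_ker).mpr (hgood x hx))
  rw [hbot]
  exact le_of_eq Nat.card_unique

end Fermat.Agent.MZ
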