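/-
MAZUR / node (F6), mu_r half, cell [CNT] (helper22).  Prefix `mzq_`.

THE `μ_r` LEAF OF THE SELMER BOUND.  `E` a `G_ℚ`-module of prime order `r`, isomorphic to `μ_r` through
`T : E → ℚ̄`; `L ⊆ H¹(G_ℚ, E)` a set of continuous classes which, for every prime `ℓ ≠ p`, are unit
classes at ONE place over `ℓ`.  Then `|L| ≤ r · |E^{G_ℚ}|`; if they are unit classes at one place over
`p` too, then `|L| ≤ |E^{G_ℚ}|`.  (All `r`, also `r = 2`; `E^{G_ℚ} = 0` for `r` odd, `= E` for `r = 2`.)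

Proof: a continuous class `x` is the Kummer class of some `q ∈ ℚ^×` (`mzq_IsKum T x q`,
Hilbert 90 = `MZ/Q/Kummer.lean`); being a unit class at `A | ℓ` forces `r ∣ v_ℓ(q)`
(`MZ/Q/Local.lean`); `x` is determined by `q` modulo `r`-th powers, and a rational number with all
valuations divisible by `r` is an `r`-th power up to sign (`MZ/Q/RatPow.lean`).  So
`x ↦ (v_p(q) mod r, sign q)` is injective.
-/
import Mathlib
import Fermat.Agent.MZ.Q.Local
import Fermat.Agent.MZ.Q.RatPow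

set_option autoImplicit false
set_option linter.unusedSectionVars false

namespace Fermat.Agent.MZ

local notation "Qb" => AlgebraicClosure ℚ
local notation "GQ" => (AlgebraicClosure ℚ ≃ₐ[ℚ] AlgebraicClosure ℚ)

section Mu

variable {E : Type*} [AddCommGroup E] [DistribMulAction GQ E]
  (T : E → Qb) (hT0 : T 0 = 1) (hTadd : ∀ a b : E, T (a + b) = T a * T b)
  (hTeq : ∀ (σ : GQ) (e : E), T (σ • e) = σ (T e))

/-- `x` is the Kummer class of the rational number `q` -/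
def mzq_IsKum (x : mzh_H1 GQ E) (q : ℚ) : Prop :=
  ∃ c : ↥(mzh_Z1 GQ E), mzh_cls GQ E c = x ∧ ∃ y : Qb, y ≠ 0 ∧
    (∀ σ : GQ, σ y = T ((c : GQ → E) σ) * y) ∧ algebraMap ℚ Qb q = y ^ Nat.card E

include hT0 hTadd hTeq in
/-- every continuous class is a Kummer class -/
theorem mzq_isKum_exists [Finite E] (x : mzh_H1 GQ E) (hx : mzq_Cont x) :
    ∃ q : ℚ, mzq_IsKum T x q := by
  obtain ⟨c, hc, K, hK, hcK⟩ := hx
  have := hK
  obtain ⟨y, hy0, hy⟩ := mzq_exists_kummer T hT0 hTadd hTeq c K hcK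
  obtain ⟨q, hq⟩ := mzq_kummer_pow_rat T hT0 hTadd (c : GQ → E) y hy
  exact ⟨q, c, hc, y, hy0, hy, hq⟩

theorem mzq_isKum_ne_zero [Finite E] {x : mzh_H1 GQ E} {q : ℚ} (h : mzq_IsKum T x q) : q ≠ 0 := by
  obtain ⟨c, -, y, hy0, -, hq⟩ := h
  rintro rfl
  rw [map_zero] at hq
  exact hy0 (pow_eq_zero_iff (Nat.card_pos (α := E)).ne' |>.mp hq.symm)

include hT0 hTadd hTeq in
/-- the local condition on the rational number -/
theorem mzq_isKum_dvd [Finite E] {x : mzh_H1 GQ E} {q : ℚ} (h : mzq_IsKum T x q)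
    (ℓ : ℕ) (hℓ : ℓ.Prime) (A : ValuationSubring Qb) (hA : A.LiesOverPrime ℓ)
    (hU : mzq_UnitAt T A x) : (Nat.card E : ℤ) ∣ padicValRat ℓ q := by
  obtain ⟨c, rfl, y, hy0, hy, hq⟩ := h
  exact mzq_loc_dvd T hT0 hTadd hTeq ℓ hℓ A hA c y hy0 hy q hq hU

include hT0 hTadd hTeq in
/-- the class is determined by the rational number modulo `r`-th powers -/
theorem mzq_isKum_inj [Finite E] (hTinj : Function.Injective T) {x₁ x₂ : mzh_H1 GQ E} {q₁ q₂ : ℚ}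
    (h1 : mzq_IsKum T x₁ q₁) (h2 : mzq_IsKum T x₂ q₂) (t : ℚ)
    (ht : q₁ / q₂ = t ^ Nat.card E) : x₁ = x₂ := by
  have hq₂0 := mzq_isKum_ne_zero T h2
  obtain ⟨c₁, rfl, y₁, hy₁0, hy₁, hq₁⟩ := h1
  obtain ⟨c₂, rfl, y₂, hy₂0, hy₂, hq₂⟩ := h2
  have hcob := mzq_coboundary_of_pow T hT0 hTadd hTeq hTinj
    (fun σ => (c₁ : GQ → E) σ - (c₂ : GQ → E) σ) (y₁ / y₂) (div_ne_zero hy₁0 hy₂0)
    (fun σ => by
      rw [map_div₀, hy₁, hy₂, mzq_T_sub T hT0 hTadd, mul_div_mul_comm]) t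
    (by
      rw [div_pow, ← hq₁, ← hq₂, ← map_div₀, ht, map_pow])
  obtain ⟨a, ha⟩ := hcob
  rw [mzh_cls_eq_iff]
  exact ⟨a, ha⟩

include hT0 hTadd hTeq in
/-- **key injectivity**: two Kummer classes whose rational numbers have the same valuations modulo
`r` at all primes (and the same sign if `r = 2`) coincide. -/
theorem mzq_isKum_key [Finite E] (hr : (Nat.card E).Prime) (hTinj : Function.Injective T)
    {x₁ x₂ : mzh_H1 GQ E} {q₁ q₂ : ℚ} (h1 : mzq_IsKum T x₁ q₁) (h2 : mzq_IsKum T x₂ q₂)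
    (hloc : ∀ ℓ : ℕ, ℓ.Prime → (Nat.card E : ℤ) ∣ padicValRat ℓ q₁ - padicValRat ℓ q₂)
    (hs : Nat.card E ≠ 2 ∨ 0 < q₁ / q₂) : x₁ = x₂ := by
  have hq₁0 := mzq_isKum_ne_zero T h1
  have hq₂0 := mzq_isKum_ne_zero T h2
  obtain ⟨t, ht⟩ := mzq_rp_main (Nat.card E) hr (q₁ / q₂) (div_ne_zero hq₁0 hq₂0)
    (fun ℓ hℓ => by
      have : Fact ℓ.Prime := ⟨hℓ⟩
      rw [padicValRat.div hq₁0 hq₂0]
      exact hloc ℓ hℓ) hs
  exact mzq_isKum_inj T hT0 hTadd hTeq hTinj h1 h2 t ht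

omit [DistribMulAction GQ E] in
include hT0 hTadd in
/-- a value of `T` on a group of order `2` is rational -/
theorem mzq_T_two [Finite E] (h2 : Nat.card E = 2) (e : E) : T e = 1 ∨ T e = -1 := by
  have h := mzq_T_pow_card T hT0 hTadd e
  rw [h2, pow_two] at h
  exact mul_self_eq_one_iff.mp h

include hT0 hTadd hTeq in
/-- for `r = 2` the action of `G_ℚ` on `E ≅ μ_2` is trivial -/
theorem mzq_H0_of_two [Finite E] (hTinj : Function.Injective T) (h2 : Nat.card E = 2) :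
    Nat.card ↥(mzh_H0 GQ E) = 2 := by
  have htop : mzh_H0 GQ E = ⊤ := by
    rw [eq_top_iff]
    intro e _ σ
    apply hTinj
    rw [hTeq]
    rcases mzq_T_two T hT0 hTadd h2 e with h | h
    · rw [h, map_one]
    · rw [h, map_neg, map_one]
  rw [htop, AddSubgroup.card_top, h2]

include hT0 hTadd hTeq in
/-- **THE `μ_r` LEAF** (all primes `r`, also `r = 2`, also `r = p`): `L` a subgroup of
`H¹(G_ℚ, E)`, `E ≅ μ_r` through `T`, all of whose elements are continuous and, for every prime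
`ℓ ≠ p`, unit classes at one place over `ℓ`.  Then `L` is finite, `|L| ≤ r · |E^{G_ℚ}|`, and if the
elements of `L` are unit classes at one place over `p` too, `|L| ≤ |E^{G_ℚ}|`. -/
theorem mzq_mu_leaf (p r : ℕ) (hp : p.Prime) (hr : r.Prime) (hE : Nat.card E = r)
    (hTinj : Function.Injective T) (L : AddSubgroup (mzh_H1 GQ E))
    (hL : ∀ x ∈ L, mzq_Cont x ∧ ∀ ℓ : ℕ, ℓ.Prime → ℓ ≠ p →
      ∃ A : ValuationSubring Qb, A.LiesOverPrime ℓ ∧ mzq_UnitAt T A x) :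
    Finite ↥L ∧ Nat.card ↥L ≤ r * Nat.card ↥(mzh_H0 GQ E) ∧
      ((∀ x ∈ L, ∃ A : ValuationSubring Qb, A.LiesOverPrime p ∧ mzq_UnitAt T A x) →
        Nat.card ↥L ≤ Nat.card ↥(mzh_H0 GQ E)) := by
  classical
  have hfin : Finite E := Nat.finite_of_card_ne_zero (by rw [hE]; exact hr.ne_zero)
  subst hE
  have hne : NeZero (Nat.card E) := ⟨hr.ne_zero⟩
  -- the rational numbers
  choose q hq using fun x : ↥L =>
    mzq_isKum_exists T hT0 hTadd hTeq (x : mzh_H1 GQ E) (hL x x.2).1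
  have hdvd : ∀ (x : ↥L) (ℓ : ℕ), ℓ.Prime → ℓ ≠ p →
      (Nat.card E : ℤ) ∣ padicValRat ℓ (q x) := by
    intro x ℓ hℓ hℓp
    obtain ⟨A, hA, hU⟩ := (hL x x.2).2 ℓ hℓ hℓp
    exact mzq_isKum_dvd T hT0 hTadd hTeq (hq x) ℓ hℓ A hA hU
  -- the key injectivity
  have hkey : ∀ x₁ x₂ : ↥L,
      (Nat.card E : ℤ) ∣ padicValRat p (q x₁) - padicValRat p (q x₂) →
      (Nat.card E ≠ 2 ∨ (0 < q x₁ ↔ 0 < q x₂)) → x₁ = x₂ := by
    intro x₁ x₂ hpd hs
    apply Subtype.ext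
    refine mzq_isKum_key T hT0 hTadd hTeq hr hTinj (hq x₁) (hq x₂) (fun ℓ hℓ => ?_) ?_
    · by_cases hℓp : ℓ = p
      · subst hℓp; exact hpd
      · exact dvd_sub (hdvd x₁ ℓ hℓ hℓp) (hdvd x₂ ℓ hℓ hℓp)
    · rcases hs with hs | hs
      · exact Or.inl hs
      · right
        have h1 := mzq_isKum_ne_zero T (hq x₁)
        have h2 := mzq_isKum_ne_zero T (hq x₂)
        rcases lt_or_gt_of_ne h2 with hneg | hpos
        · have h3 : ¬ 0 < q x₁ := fun h => absurd (hs.mp h) (not_lt.2 hneg.le)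
          have h1neg : q x₁ < 0 := lt_of_le_of_ne (not_lt.1 h3) h1
          exact div_pos_of_neg_of_neg h1neg hneg
        · exact div_pos (hs.mpr hpos) hpos
  -- the invariants
  let Φ₁ : ↥L → ZMod (Nat.card E) := fun x => ((padicValRat p (q x) : ℤ) : ZMod (Nat.card E))
  let Φ₂ : ↥L → Bool := fun x => decide (0 < q x)
  have hΦ₁ : ∀ x₁ x₂ : ↥L, Φ₁ x₁ = Φ₁ x₂ →
      (Nat.card E : ℤ) ∣ padicValRat p (q x₁) - padicValRat p (q x₂) := by
    intro x₁ x₂ h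
    have := (ZMod.intCast_eq_intCast_iff_dvd_sub _ _ _).mp h.symm
    exact this
  have hΦ₂ : ∀ x₁ x₂ : ↥L, Φ₂ x₁ = Φ₂ x₂ → (0 < q x₁ ↔ 0 < q x₂) := by
    intro x₁ x₂ h
    simpa [Φ₂] using h
  have hinj : Function.Injective (fun x => (Φ₁ x, Φ₂ x)) := by
    intro x₁ x₂ h
    have h1 : Φ₁ x₁ = Φ₁ x₂ := congrArg Prod.fst h
    have h2 : Φ₂ x₁ = Φ₂ x₂ := congrArg Prod.snd h
    exact hkey x₁ x₂ (hΦ₁ x₁ x₂ h1) (Or.inr (hΦ₂ x₁ x₂ h2))
  have hfinL : Finite ↥L := Finite.of_injective _ hinj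
  have hH0pos : 1 ≤ Nat.card ↥(mzh_H0 GQ E) := Nat.card_pos
  refine ⟨hfinL, ?_, fun hgood => ?_⟩
  · by_cases h2 : Nat.card E = 2
    · have hle := Nat.card_le_card_of_injective _ hinj
      rw [Nat.card_prod, Nat.card_zmod, Nat.card_eq_fintype_card (α := Bool),
        Fintype.card_bool] at hle
      rw [mzq_H0_of_two T hT0 hTadd hTeq hTinj h2]
      exact hle
    · have hinj₁ : Function.Injective Φ₁ := fun x₁ x₂ h =>
        hkey x₁ x₂ (hΦ₁ x₁ x₂ h) (Or.inl h2)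
      have hle := Nat.card_le_card_of_injective _ hinj₁
      rw [Nat.card_zmod] at hle
      calc Nat.card ↥L ≤ Nat.card E * 1 := by rw [mul_one]; exact hle
        _ ≤ Nat.card E * Nat.card ↥(mzh_H0 GQ E) := Nat.mul_le_mul_left _ hH0pos
  · have hdvdp : ∀ x : ↥L, (Nat.card E : ℤ) ∣ padicValRat p (q x) := by
      intro x
      obtain ⟨A, hA, hU⟩ := hgood x x.2
      exact mzq_isKum_dvd T hT0 hTadd hTeq (hq x) p hp A hA hU
    by_cases h2 : Nat.card E = 2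
    · have hinj₂ : Function.Injective Φ₂ := fun x₁ x₂ h =>
        hkey x₁ x₂ (dvd_sub (hdvdp x₁) (hdvdp x₂)) (Or.inr (hΦ₂ x₁ x₂ h))
      have hle := Nat.card_le_card_of_injective _ hinj₂
      rw [Nat.card_eq_fintype_card (α := Bool), Fintype.card_bool] at hle
      rw [mzq_H0_of_two T hT0 hTadd hTeq hTinj h2]
      exact hle
    · have hsub : Subsingleton ↥L := ⟨fun x₁ x₂ =>
        hkey x₁ x₂ (dvd_sub (hdvdp x₁) (hdvdp x₂)) (Or.inl h2)⟩
      exact le_trans (Finite.card_le_one_iff_subsingleton.mpr hsub) hH0pos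

end Mu

end Fermat.Agent.MZ
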