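/-
MAZUR / node (F6), mu_r half, SIGN variant (helper22).  Prefix `mzq_`.

* `mzq_H0_of_odd`     : for `r` odd, `E ≅ μ_r` has no `G_ℚ`-invariants (`|E^{G_ℚ}| = 1`);
* `mzq_isKum_pos`     : `r = 2`, `c` a complex conjugation (`ι (c z) = conj (ι z)` for an embedding
  `ι : ℚ̄ → ℂ`): a Kummer class of `q ∈ ℚ^×` whose restriction to `⟨c⟩` vanishes has `q > 0`;
* `mzq_mu_leaf_real`  : THE `μ_r` LEAF WITH THE ARCHIMEDEAN CONDITION: hypotheses of `mzq_mu_leaf`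
  and all classes die on `⟨c⟩`  ⟹  `|L| ≤ r`, and `|L| ≤ 1` if they are unit classes at `p` too
  (all `r`; for `r = 2` both bounds of `mzq_mu_leaf` are halved).
-/
import Mathlib
import Fermat.Agent.MZ.Q.Mu

set_option autoImplicit false
set_option linter.unusedSectionVars false

namespace Fermat.Agent.MZ

local notation "Qb" => AlgebraicClosure ℚ
local notation "GQ" => (AlgebraicClosure ℚ ≃ₐ[ℚ] AlgebraicClosure ℚ)

section Real

variable {E : Type*} [AddCommGroup E] [DistribMulAction GQ E]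
  (T : E → Qb) (hT0 : T 0 = 1) (hTadd : ∀ a b : E, T (a + b) = T a * T b)
  (hTeq : ∀ (σ : GQ) (e : E), T (σ • e) = σ (T e))

include hT0 hTadd hTeq in
/-- for `r` odd, `E ≅ μ_r` has no invariants -/
theorem mzq_H0_of_odd [Finite E] (hr : (Nat.card E).Prime) (hTinj : Function.Injective T)
    (h2 : Nat.card E ≠ 2) : Nat.card ↥(mzh_H0 GQ E) = 1 := by
  have hbot : mzh_H0 GQ E = ⊥ := by
    rw [eq_bot_iff]
    intro e he
    rw [AddSubgroup.mem_bot]
    have := mzq_normal_Qb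
    have : IsGalois ℚ Qb := ⟨⟩
    obtain ⟨t, ht⟩ := (InfiniteGalois.mem_range_algebraMap_iff_fixed (k := ℚ) (K := Qb)
      (T e)).mpr (fun σ => by rw [← hTeq, he σ])
    have hpow : t ^ Nat.card E = 1 := by
      apply (algebraMap ℚ Qb).injective
      rw [map_pow, ht, mzq_T_pow_card T hT0 hTadd, map_one]
    have hodd : Odd (Nat.card E) := hr.odd_of_ne_two h2
    have ht1 : t = 1 := hodd.strictMono_pow.injective (by simpa using hpow)
    apply hTinj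
    rw [← ht, ht1, map_one, hT0]
  rw [hbot, AddSubgroup.card_bot]

include hT0 hTadd hTeq in
/-- `r = 2`: a Kummer class which dies on `⟨c⟩`, `c` a complex conjugation, is the class of a
POSITIVE rational number. -/
theorem mzq_isKum_pos [Finite E] (h2 : Nat.card E = 2) (ι : Qb →+* ℂ) (c : GQ)
    (hc : ∀ z : Qb, ι (c z) = starRingEnd ℂ (ι z)) {x : mzh_H1 GQ E} {q : ℚ}
    (hk : mzq_IsKum T x q) (hreal : mzh_H1resSub (Subgroup.zpowers c) x = 0) : 0 < q := by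
  have hq0 := mzq_isKum_ne_zero T hk
  obtain ⟨cc, rfl, y, hy0, hy, hq⟩ := hk
  obtain ⟨a, ha⟩ := (mzh_H1resSub_eq_zero_iff _ cc).mp hreal
  have hca := ha c (Subgroup.mem_zpowers c)
  have hTa0 := mzq_T_ne_zero T hT0 hTadd a
  have hcTa0 : c (T a) ≠ 0 := (map_ne_zero _).mpr hTa0
  -- `y / T a` is fixed by `c`
  have hfix : c (y / T a) = y / T a := by
    rw [map_div₀, hy, hca, mzq_T_sub T hT0 hTadd, hTeq]
    field_simp
  -- so it is real
  have hconj : starRingEnd ℂ (ι (y / T a)) = ι (y / T a) := by rw [← hc, hfix]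
  obtain ⟨s, hs⟩ := Complex.conj_eq_iff_real.mp hconj
  -- and `q` is its square
  have hTa2 : T a ^ 2 = 1 := by
    have := mzq_T_pow_card T hT0 hTadd a
    rwa [h2] at this
  have hqy : algebraMap ℚ Qb q = (y / T a) ^ 2 := by
    rw [hq, h2, div_pow, hTa2, div_one]
  have hqC : (q : ℂ) = ((s : ℝ) : ℂ) ^ 2 := by
    rw [← hs, ← map_pow, ← hqy, eq_ratCast, map_ratCast]
  have hqR : (q : ℝ) = s ^ 2 := by
    have : ((q : ℝ) : ℂ) = ((s ^ 2 : ℝ) : ℂ) := by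
      push_cast
      exact_mod_cast hqC
    exact Complex.ofReal_injective this
  have hq_nonneg : (0 : ℝ) ≤ (q : ℝ) := by rw [hqR]; positivity
  have : (0 : ℚ) ≤ q := by exact_mod_cast hq_nonneg
  exact lt_of_le_of_ne this (Ne.symm hq0)

include hT0 hTadd hTeq in
/-- **THE `μ_r` LEAF WITH THE ARCHIMEDEAN CONDITION** (all primes `r`): hypotheses of `mzq_mu_leaf`,
and every class of `L` dies on `⟨c⟩`, `c` a complex conjugation.  Then `|L| ≤ r`, and `|L| ≤ 1`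
if the classes are unit classes at one place over `p` too. -/
theorem mzq_mu_leaf_real (p r : ℕ) (hp : p.Prime) (hr : r.Prime) (hE : Nat.card E = r)
    (hTinj : Function.Injective T) (ι : Qb →+* ℂ) (c : GQ)
    (hc : ∀ z : Qb, ι (c z) = starRingEnd ℂ (ι z)) (L : AddSubgroup (mzh_H1 GQ E))
    (hL : ∀ x ∈ L, mzq_Cont x ∧ ∀ ℓ : ℕ, ℓ.Prime → ℓ ≠ p →
      ∃ A : ValuationSubring Qb, A.LiesOverPrime ℓ ∧ mzq_UnitAt T A x)
    (hreal : ∀ x ∈ L, mzh_H1resSub (Subgroup.zpowers c) x = 0) :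
    Finite ↥L ∧ Nat.card ↥L ≤ r ∧
      ((∀ x ∈ L, ∃ A : ValuationSubring Qb, A.LiesOverPrime p ∧ mzq_UnitAt T A x) →
        Nat.card ↥L ≤ 1) := by
  classical
  have hfin : Finite E := Nat.finite_of_card_ne_zero (by rw [hE]; exact hr.ne_zero)
  subst hE
  have hne : NeZero (Nat.card E) := ⟨hr.ne_zero⟩
  choose q hq using fun x : ↥L =>
    mzq_isKum_exists T hT0 hTadd hTeq (x : mzh_H1 GQ E) (hL x x.2).1
  have hdvd : ∀ (x : ↥L) (ℓ : ℕ), ℓ.Prime → ℓ ≠ p →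
      (Nat.card E : ℤ) ∣ padicValRat ℓ (q x) := by
    intro x ℓ hℓ hℓp
    obtain ⟨A, hA, hU⟩ := (hL x x.2).2 ℓ hℓ hℓp
    exact mzq_isKum_dvd T hT0 hTadd hTeq (hq x) ℓ hℓ A hA hU
  have hkey : ∀ x₁ x₂ : ↥L,
      (Nat.card E : ℤ) ∣ padicValRat p (q x₁) - padicValRat p (q x₂) → x₁ = x₂ := by
    intro x₁ x₂ hpd
    apply Subtype.ext
    refine mzq_isKum_key T hT0 hTadd hTeq hr hTinj (hq x₁) (hq x₂) (fun ℓ hℓ => ?_) ?_
    · by_cases hℓp : ℓ = p
      · subst hℓp; exact hpd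
      · exact dvd_sub (hdvd x₁ ℓ hℓ hℓp) (hdvd x₂ ℓ hℓ hℓp)
    · by_cases h2 : Nat.card E = 2
      · right
        exact div_pos
          (mzq_isKum_pos T hT0 hTadd hTeq h2 ι c hc (hq x₁) (hreal x₁ x₁.2))
          (mzq_isKum_pos T hT0 hTadd hTeq h2 ι c hc (hq x₂) (hreal x₂ x₂.2))
      · exact Or.inl h2
  let Φ₁ : ↥L → ZMod (Nat.card E) := fun x => ((padicValRat p (q x) : ℤ) : ZMod (Nat.card E))
  have hΦ₁ : ∀ x₁ x₂ : ↥L, Φ₁ x₁ = Φ₁ x₂ →
      (Nat.card E : ℤ) ∣ padicValRat p (q x₁) - padicValRat p (q x₂) := by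
    intro x₁ x₂ h
    exact (ZMod.intCast_eq_intCast_iff_dvd_sub _ _ _).mp h.symm
  have hinj₁ : Function.Injective Φ₁ := fun x₁ x₂ h => hkey x₁ x₂ (hΦ₁ x₁ x₂ h)
  have hfinL : Finite ↥L := Finite.of_injective _ hinj₁
  refine ⟨hfinL, ?_, fun hgood => ?_⟩
  · have hle := Nat.card_le_card_of_injective _ hinj₁
    rwa [Nat.card_zmod] at hle
  · have hdvdp : ∀ x : ↥L, (Nat.card E : ℤ) ∣ padicValRat p (q x) := by
      intro x
      obtain ⟨A, hA, hU⟩ := hgood x x.2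
      exact mzq_isKum_dvd T hT0 hTadd hTeq (hq x) p hp A hA hU
    have hsub : Subsingleton ↥L := ⟨fun x₁ x₂ =>
      hkey x₁ x₂ (dvd_sub (hdvdp x₁) (hdvdp x₂))⟩
    exact Finite.card_le_one_iff_subsingleton.mpr hsub

end Real

end Fermat.Agent.MZ
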