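/-
MAZUR / node (F6) (helper29 for helper22 / helper9): CONJUGATION OF PLACES.  Local conditions at one
place `A` over `ℓ` imply the same conditions at every other place over `ℓ`.

General part (`Γ` any group, `E` any `Γ`-module):
* `mzq_cj_twist c τ` : the cocycle `c + d0 (c τ)`, cohomologous to `c`;
* `mzq_cj_twist_conj` : `(mzq_cj_twist c τ) (τ * σ * τ⁻¹) = τ • c σ`;
* `mzq_cj_resSub_conj` : `res_I x = 0 → res_{I'} x = 0` when `I' ⊆ τ I τ⁻¹`.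
`G_ℚ`-part (`A : ValuationSubring Qb`, `τ • A` the pointwise action):
* `mzq_cj_mem_inertia_smul` : `σ' ∈ I_{τ A} ↔ τ⁻¹ σ' τ ∈ I_A`;
* `mzq_cj_unram` : unramified at `A` ⟹ unramified at `τ • A`; `mzq_cj_unram_all` : ⟹ at every `A'` over `ℓ`;
* `mzq_cj_unitAt` : the unit condition (∃ representative `c`, ∃ `β` unit of `A`,
  `T (c σ) * β = σ β` on `I_A`) at `A` ⟹ at `τ • A`; `mzq_cj_unitAt_all` : ⟹ at every `A'` over `ℓ`.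
Prefix `mzq_cj_`.
-/
import Mathlib
import Fermat.Agent.MZ.H.Coh
import Fermat.Agent.S55.Places.Basic

set_option autoImplicit false

open scoped Pointwise

namespace Fermat.Agent.MZ

section general

variable {Γ : Type*} [Group Γ] {E : Type*} [AddCommGroup E] [DistribMulAction Γ E]

/-- the cocycle `c + d0 (c τ)` -/
def mzq_cj_twist (c : ↥(mzh_Z1 Γ E)) (τ : Γ) : ↥(mzh_Z1 Γ E) :=
  c + ⟨mzh_d0 Γ E ((c : Γ → E) τ), mzh_d0_mem_Z1 Γ E _⟩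

theorem mzq_cj_twist_apply (c : ↥(mzh_Z1 Γ E)) (τ σ : Γ) :
    (mzq_cj_twist c τ : Γ → E) σ = (c : Γ → E) σ + (σ • (c : Γ → E) τ - (c : Γ → E) τ) := rfl

theorem mzq_cj_cls_twist (c : ↥(mzh_Z1 Γ E)) (τ : Γ) :
    mzh_cls Γ E (mzq_cj_twist c τ) = mzh_cls Γ E c := by
  rw [mzh_cls_eq_iff]
  refine ⟨(c : Γ → E) τ, fun σ => ?_⟩
  rw [mzq_cj_twist_apply]
  abel

theorem mzq_cj_Z1_one (c : ↥(mzh_Z1 Γ E)) : (c : Γ → E) 1 = 0 := by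
  have h := c.2 1 1
  rw [mul_one, one_smul] at h
  have h2 : (c : Γ → E) 1 + 0 = (c : Γ → E) 1 + (c : Γ → E) 1 := by rw [add_zero]; exact h
  exact (add_left_cancel h2).symm

theorem mzq_cj_Z1_inv (c : ↥(mzh_Z1 Γ E)) (τ : Γ) :
    (c : Γ → E) τ⁻¹ = -(τ⁻¹ • (c : Γ → E) τ) := by
  have h := c.2 τ⁻¹ τ
  rw [inv_mul_cancel, mzq_cj_Z1_one] at h
  exact eq_neg_of_add_eq_zero_left h.symm

/-- **the conjugation identity** -/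
theorem mzq_cj_twist_conj (c : ↥(mzh_Z1 Γ E)) (τ σ : Γ) :
    (mzq_cj_twist c τ : Γ → E) (τ * σ * τ⁻¹) = τ • (c : Γ → E) σ := by
  rw [mzq_cj_twist_apply, c.2 (τ * σ) τ⁻¹, c.2 τ σ, mzq_cj_Z1_inv, smul_neg, ← mul_smul]
  abel

/-- `res_I x = 0 ⟹ res_{I'} x = 0` when every element of `I'` is `τ σ τ⁻¹` with `σ ∈ I`. -/
theorem mzq_cj_resSub_conj (I I' : Subgroup Γ) (τ : Γ)
    (hconj : ∀ σ' ∈ I', τ⁻¹ * σ' * τ ∈ I) (x : mzh_H1 Γ E)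
    (hx : mzh_H1resSub I x = 0) : mzh_H1resSub I' x = 0 := by
  obtain ⟨c, rfl⟩ := mzh_cls_surjective Γ E x
  rw [mzh_H1resSub_eq_zero_iff] at hx
  obtain ⟨a, ha⟩ := hx
  rw [← mzq_cj_cls_twist c τ, mzh_H1resSub_eq_zero_iff]
  refine ⟨τ • a, fun σ' hσ' => ?_⟩
  have h1 : σ' = τ * (τ⁻¹ * σ' * τ) * τ⁻¹ := by group
  have h2 := mzq_cj_twist_conj c τ (τ⁻¹ * σ' * τ)
  rw [← h1] at h2
  rw [h2, ha _ (hconj σ' hσ'), smul_sub, ← mul_smul, ← mul_smul]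
  congr 2
  group

end general

section galQ

local notation "Qb" => AlgebraicClosure ℚ
local notation "GQ" => (AlgebraicClosure ℚ ≃ₐ[ℚ] AlgebraicClosure ℚ)

open Fermat.Agent.S55

/-- inertia of `τ • A` is the conjugate of the inertia of `A` -/
theorem mzq_cj_mem_inertia_smul (A : ValuationSubring Qb) (τ σ' : GQ)
    (h : σ' ∈ (τ • A).inertiaSubgroupIn ℚ) : τ⁻¹ * σ' * τ ∈ A.inertiaSubgroupIn ℚ := by
  have h1 := tl_inertia_conj (τ • A) τ⁻¹ σ' h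
  rwa [inv_smul_smul, inv_inv] at h1

variable {E : Type*} [AddCommGroup E] [DistribMulAction GQ E]

/-- unramified at `A` ⟹ unramified at `τ • A` -/
theorem mzq_cj_unram (A : ValuationSubring Qb) (τ : GQ) (x : mzh_H1 GQ E)
    (hx : mzh_H1resSub (A.inertiaSubgroupIn ℚ) x = 0) :
    mzh_H1resSub ((τ • A).inertiaSubgroupIn ℚ) x = 0 :=
  mzq_cj_resSub_conj _ _ τ (fun σ' hσ' => mzq_cj_mem_inertia_smul A τ σ' hσ') x hx

/-- unramified at one place over `ℓ` ⟹ unramified at all places over `ℓ` -/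
theorem mzq_cj_unram_all {ℓ : ℕ} (hℓ : ℓ.Prime) (A : ValuationSubring Qb)
    (hA : A.LiesOverPrime ℓ) (x : mzh_H1 GQ E)
    (hx : mzh_H1resSub (A.inertiaSubgroupIn ℚ) x = 0)
    (A' : ValuationSubring Qb) (hA' : A'.LiesOverPrime ℓ) :
    mzh_H1resSub (A'.inertiaSubgroupIn ℚ) x = 0 := by
  obtain ⟨τ, rfl⟩ := pl_exists_smul_eq hℓ hA hA'
  exact mzq_cj_unram A τ x hx

/-- the unit condition at `A` ⟹ the unit condition at `τ • A` -/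
theorem mzq_cj_unitAt (T : E → Qb) (hTeq : ∀ (σ : GQ) (e : E), T (σ • e) = σ (T e))
    (A : ValuationSubring Qb) (τ : GQ) (x : mzh_H1 GQ E)
    (hx : ∃ c : ↥(mzh_Z1 GQ E), mzh_cls GQ E c = x ∧ ∃ β : Qb, β ∈ A ∧ β⁻¹ ∈ A ∧
      ∀ σ ∈ A.inertiaSubgroupIn ℚ, T ((c : GQ → E) σ) * β = σ β) :
    ∃ c : ↥(mzh_Z1 GQ E), mzh_cls GQ E c = x ∧ ∃ β : Qb, β ∈ τ • A ∧ β⁻¹ ∈ τ • A ∧
      ∀ σ ∈ (τ • A).inertiaSubgroupIn ℚ, T ((c : GQ → E) σ) * β = σ β := by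
  obtain ⟨c, hc, β, hβ, hβi, hcβ⟩ := hx
  refine ⟨mzq_cj_twist c τ, by rw [mzq_cj_cls_twist, hc], τ β, ?_, ?_, fun σ' hσ' => ?_⟩
  · exact (ValuationSubring.mem_smul_pointwise_iff_exists τ (τ β) A).2 ⟨β, hβ, rfl⟩
  · rw [← map_inv₀]
    exact (ValuationSubring.mem_smul_pointwise_iff_exists τ (τ β⁻¹) A).2 ⟨β⁻¹, hβi, rfl⟩
  · have hσ := mzq_cj_mem_inertia_smul A τ σ' hσ'
    have h1 : σ' = τ * (τ⁻¹ * σ' * τ) * τ⁻¹ := by group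
    have h2 := mzq_cj_twist_conj c τ (τ⁻¹ * σ' * τ)
    rw [← h1] at h2
    rw [h2, hTeq, ← map_mul, hcβ _ hσ]
    show τ (τ⁻¹ (σ' (τ β))) = σ' (τ β)
    exact τ.apply_symm_apply _

/-- the unit condition at one place over `ℓ` ⟹ at all places over `ℓ` -/
theorem mzq_cj_unitAt_all (T : E → Qb) (hTeq : ∀ (σ : GQ) (e : E), T (σ • e) = σ (T e))
    {ℓ : ℕ} (hℓ : ℓ.Prime) (A : ValuationSubring Qb) (hA : A.LiesOverPrime ℓ) (x : mzh_H1 GQ E)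
    (hx : ∃ c : ↥(mzh_Z1 GQ E), mzh_cls GQ E c = x ∧ ∃ β : Qb, β ∈ A ∧ β⁻¹ ∈ A ∧
      ∀ σ ∈ A.inertiaSubgroupIn ℚ, T ((c : GQ → E) σ) * β = σ β)
    (A' : ValuationSubring Qb) (hA' : A'.LiesOverPrime ℓ) :
    ∃ c : ↥(mzh_Z1 GQ E), mzh_cls GQ E c = x ∧ ∃ β : Qb, β ∈ A' ∧ β⁻¹ ∈ A' ∧
      ∀ σ ∈ A'.inertiaSubgroupIn ℚ, T ((c : GQ → E) σ) * β = σ β := by
  obtain ⟨τ, rfl⟩ := pl_exists_smul_eq hℓ hA hA'
  exact mzq_cj_unitAt T hTeq A τ x hx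

end galQ

end Fermat.Agent.MZ
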