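/-
MAZUR / node (F6) (helper29 for helper22 / helper9): CONJUGATION OF PLACES for the unit condition in
its CORRECTED shape (helper22's bug report: `β ≠ 0` as the third clause, since `(0)⁻¹ = 0` in Lean):
`∃ c, cls c = x ∧ ∃ β, β ∈ A ∧ β⁻¹ ∈ A ∧ β ≠ 0 ∧ ∀ σ ∈ I_A, T (c σ) * β = σ β`.

* `mzq_cj_unitAtNZ` : the condition at `A` ⟹ at `τ • A`;
* `mzq_cj_unitAtNZ_all` : the condition at one place over `ℓ` ⟹ at every place over `ℓ`.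
Prefix `mzq_cj_`.
-/
import Mathlib
import Fermat.Agent.MZ.Q.Conj

set_option autoImplicit false

open scoped Pointwise

namespace Fermat.Agent.MZ

section galQ

local notation "Qb" => AlgebraicClosure ℚ
local notation "GQ" => (AlgebraicClosure ℚ ≃ₐ[ℚ] AlgebraicClosure ℚ)

open Fermat.Agent.S55

variable {E : Type*} [AddCommGroup E] [DistribMulAction GQ E]

/-- the (corrected) unit condition at `A` ⟹ the unit condition at `τ • A` -/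
theorem mzq_cj_unitAtNZ (T : E → Qb) (hTeq : ∀ (σ : GQ) (e : E), T (σ • e) = σ (T e))
    (A : ValuationSubring Qb) (τ : GQ) (x : mzh_H1 GQ E)
    (hx : ∃ c : ↥(mzh_Z1 GQ E), mzh_cls GQ E c = x ∧ ∃ β : Qb, β ∈ A ∧ β⁻¹ ∈ A ∧ β ≠ 0 ∧
      ∀ σ ∈ A.inertiaSubgroupIn ℚ, T ((c : GQ → E) σ) * β = σ β) :
    ∃ c : ↥(mzh_Z1 GQ E), mzh_cls GQ E c = x ∧ ∃ β : Qb, β ∈ τ • A ∧ β⁻¹ ∈ τ • A ∧ β ≠ 0 ∧
      ∀ σ ∈ (τ • A).inertiaSubgroupIn ℚ, T ((c : GQ → E) σ) * β = σ β := by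
  obtain ⟨c, hc, β, hβ, hβi, hβ0, hcβ⟩ := hx
  refine ⟨mzq_cj_twist c τ, by rw [mzq_cj_cls_twist, hc], τ β, ?_, ?_, ?_, fun σ' hσ' => ?_⟩
  · exact (ValuationSubring.mem_smul_pointwise_iff_exists τ (τ β) A).2 ⟨β, hβ, rfl⟩
  · rw [← map_inv₀]
    exact (ValuationSubring.mem_smul_pointwise_iff_exists τ (τ β⁻¹) A).2 ⟨β⁻¹, hβi, rfl⟩
  · exact fun h => hβ0 ((map_eq_zero τ).1 h)
  · have hσ := mzq_cj_mem_inertia_smul A τ σ' hσ'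
    have h1 : σ' = τ * (τ⁻¹ * σ' * τ) * τ⁻¹ := by group
    have h2 := mzq_cj_twist_conj c τ (τ⁻¹ * σ' * τ)
    rw [← h1] at h2
    rw [h2, hTeq, ← map_mul, hcβ _ hσ]
    show τ (τ⁻¹ (σ' (τ β))) = σ' (τ β)
    exact τ.apply_symm_apply _

/-- the (corrected) unit condition at one place over `ℓ` ⟹ at all places over `ℓ` -/
theorem mzq_cj_unitAtNZ_all (T : E → Qb) (hTeq : ∀ (σ : GQ) (e : E), T (σ • e) = σ (T e))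
    {ℓ : ℕ} (hℓ : ℓ.Prime) (A : ValuationSubring Qb) (hA : A.LiesOverPrime ℓ) (x : mzh_H1 GQ E)
    (hx : ∃ c : ↥(mzh_Z1 GQ E), mzh_cls GQ E c = x ∧ ∃ β : Qb, β ∈ A ∧ β⁻¹ ∈ A ∧ β ≠ 0 ∧
      ∀ σ ∈ A.inertiaSubgroupIn ℚ, T ((c : GQ → E) σ) * β = σ β)
    (A' : ValuationSubring Qb) (hA' : A'.LiesOverPrime ℓ) :
    ∃ c : ↥(mzh_Z1 GQ E), mzh_cls GQ E c = x ∧ ∃ β : Qb, β ∈ A' ∧ β⁻¹ ∈ A' ∧ β ≠ 0 ∧
      ∀ σ ∈ A'.inertiaSubgroupIn ℚ, T ((c : GQ → E) σ) * β = σ β := by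
  obtain ⟨τ, rfl⟩ := pl_exists_smul_eq hℓ hA hA'
  exact mzq_cj_unitAtNZ T hTeq A τ x hx

end galQ

end Fermat.Agent.MZ
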