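/-
MAZUR / (F6), glue [CTS-BRIDGE] (helper11): the two forms of "continuous class" for `G_ℚ`-modules
agree.  Prefix `mzq_cb_`.

* `mzd_H1cts GQ E` (helper29, `MZ/H/Cts.lean`): classes with a uniformly locally constant
  representative;
* finite-level form (helper22's `mzq_Cont`, helper9's `mzds_Cont`, stated here UNFOLDED):
  `∃ c, cls c = x ∧ ∃ K : IntermediateField ℚ Qb, FiniteDimensional ℚ K ∧
     ∀ σ ∈ K.fixingSubgroup, c σ = 0`.

* `mzq_cb_open_iff` : a subgroup of `GQ` is open iff it contains `K.fixingSubgroup`, `[K:ℚ] < ∞`;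
* `mzq_cb_isLC_iff` : a cocycle is `mzd_IsLC` iff it vanishes on some `K.fixingSubgroup`;
* `mzq_cb_mem_H1cts_iff` : the bridge, both directions;
* `mzq_cb_forall_rep` : with open stabilisers, EVERY representative of a continuous class vanishes
  on some `K.fixingSubgroup`.
-/
import Fermat.Agent.MZ.H.Cts

set_option autoImplicit false
set_option linter.style.haveILetI false
set_option linter.unusedSectionVars false

open scoped Topology

namespace Fermat.Agent.MZ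

local notation "GQ" => (AlgebraicClosure ℚ ≃ₐ[ℚ] AlgebraicClosure ℚ)
local notation "Qb" => AlgebraicClosure ℚ

/-- a subgroup of `G_ℚ` is open iff it contains the fixing subgroup of a finite extension -/
theorem mzq_cb_open_iff (U : Subgroup GQ) :
    IsOpen (U : Set GQ) ↔ ∃ K : IntermediateField ℚ Qb, FiniteDimensional ℚ K ∧
      K.fixingSubgroup ≤ U := by
  constructor
  · intro hU
    have h1 : (U : Set GQ) ∈ 𝓝 (1 : GQ) := hU.mem_nhds U.one_mem
    obtain ⟨K, hK, hKU⟩ := (krullTopology_mem_nhds_one_iff ℚ Qb _).mp h1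
    exact ⟨K, hK, hKU⟩
  · rintro ⟨K, hK, hKU⟩
    haveI := hK
    exact Subgroup.isOpen_mono hKU K.fixingSubgroup_isOpen

variable {E : Type*} [AddCommGroup E] [DistribMulAction GQ E]

/-- a cocycle is uniformly locally constant iff it vanishes on the absolute Galois group of a
finite extension -/
theorem mzq_cb_isLC_iff (c : ↥(mzh_Z1 GQ E)) :
    mzd_IsLC (c : GQ → E) ↔ ∃ K : IntermediateField ℚ Qb, FiniteDimensional ℚ K ∧
      ∀ σ ∈ K.fixingSubgroup, (c : GQ → E) σ = 0 := by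
  rw [mzd_isLC_iff_vanish]
  constructor
  · rintro ⟨U, hU, hc⟩
    obtain ⟨K, hK, hKU⟩ := (mzq_cb_open_iff U).mp hU
    exact ⟨K, hK, fun σ hσ => hc σ (hKU hσ)⟩
  · rintro ⟨K, hK, hc⟩
    haveI := hK
    exact ⟨K.fixingSubgroup, K.fixingSubgroup_isOpen, hc⟩

/-- **[CTS-BRIDGE]**: `mzd_H1cts` is the finite-level continuity condition. -/
theorem mzq_cb_mem_H1cts_iff (x : mzh_H1 GQ E) :
    x ∈ mzd_H1cts GQ E ↔
      ∃ c : ↥(mzh_Z1 GQ E), mzh_cls GQ E c = x ∧ ∃ K : IntermediateField ℚ Qb,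
        FiniteDimensional ℚ K ∧ ∀ σ ∈ K.fixingSubgroup, (c : GQ → E) σ = 0 := by
  rw [mzd_mem_H1cts]
  constructor
  · rintro ⟨c, hc, rfl⟩
    exact ⟨c, rfl, (mzq_cb_isLC_iff c).mp hc⟩
  · rintro ⟨c, rfl, hK⟩
    exact ⟨c, (mzq_cb_isLC_iff c).mpr hK, rfl⟩

theorem mzq_cb_cont_of_mem {x : mzh_H1 GQ E} (hx : x ∈ mzd_H1cts GQ E) :
    ∃ c : ↥(mzh_Z1 GQ E), mzh_cls GQ E c = x ∧ ∃ K : IntermediateField ℚ Qb,
      FiniteDimensional ℚ K ∧ ∀ σ ∈ K.fixingSubgroup, (c : GQ → E) σ = 0 :=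
  (mzq_cb_mem_H1cts_iff x).mp hx

theorem mzq_cb_mem_of_cont {x : mzh_H1 GQ E}
    (hx : ∃ c : ↥(mzh_Z1 GQ E), mzh_cls GQ E c = x ∧ ∃ K : IntermediateField ℚ Qb,
      FiniteDimensional ℚ K ∧ ∀ σ ∈ K.fixingSubgroup, (c : GQ → E) σ = 0) :
    x ∈ mzd_H1cts GQ E :=
  (mzq_cb_mem_H1cts_iff x).mpr hx

/-- with open stabilisers, EVERY representative of a continuous class vanishes on the absolute
Galois group of a finite extension -/
theorem mzq_cb_forall_rep (hE : mzd_OpenStab GQ E) (c : ↥(mzh_Z1 GQ E))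
    (hx : mzh_cls GQ E c ∈ mzd_H1cts GQ E) :
    ∃ K : IntermediateField ℚ Qb, FiniteDimensional ℚ K ∧
      ∀ σ ∈ K.fixingSubgroup, (c : GQ → E) σ = 0 :=
  (mzq_cb_isLC_iff c).mp (mzd_isLC_of_mem hE c hx)

/-- open stabilisers in finite-level form -/
theorem mzq_cb_openStab_iff :
    mzd_OpenStab GQ E ↔ ∀ a : E, ∃ K : IntermediateField ℚ Qb, FiniteDimensional ℚ K ∧
      ∀ σ ∈ K.fixingSubgroup, σ • a = a := by
  constructor
  · intro h a
    obtain ⟨U, hU, ha⟩ := h a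
    obtain ⟨K, hK, hKU⟩ := (mzq_cb_open_iff U).mp hU
    exact ⟨K, hK, fun σ hσ => ha σ (hKU hσ)⟩
  · intro h a
    obtain ⟨K, hK, ha⟩ := h a
    haveI := hK
    exact ⟨K.fixingSubgroup, K.fixingSubgroup_isOpen, ha⟩

end Fermat.Agent.MZ
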