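/-
MAZUR / node (F6), mu_r half, cell [RAT] (helper29 for helper22): a nonzero rational all of whose
`ℓ`-adic valuations are divisible by `r` is, up to sign, an `r`-th power; variant with one exceptional
prime `p`.  Mathlib only.  Prefix `mzq_rp_`.

* `mzq_rp_nat`   : `n ≠ 0`, `r ∣ padicValNat ℓ n` for all primes `ℓ`  ⟹ `∃ a, n = a ^ r`;
* `mzq_rp_abs`   : `x ≠ 0`, `(r:ℤ) ∣ padicValRat ℓ x` for all primes `ℓ` ⟹ `∃ t, |x| = t ^ r` (`0 < t`);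
* `mzq_rp_main`  : the same with `r` prime and (`r ≠ 2 ∨ 0 < x`) ⟹ `∃ t, x = t ^ r`;
* `mzq_rp_sign`  : the same with no sign hypothesis ⟹ `∃ t, x = t ^ r ∨ (r = 2 ∧ x = -t ^ r)`;
* `mzq_rp_except`: divisibility only at `ℓ ≠ p`
      ⟹ `∃ t k, k < r ∧ (x = p ^ k * t ^ r ∨ (r = 2 ∧ x = -(p ^ k * t ^ r)))`.
-/
import Mathlib

set_option autoImplicit false

namespace Fermat.Agent.MZ

/-- a nonzero natural number all of whose valuations are divisible by `r` is an `r`-th power -/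
theorem mzq_rp_nat (r : ℕ) (n : ℕ) (hn : n ≠ 0)
    (h : ∀ ℓ : ℕ, ℓ.Prime → r ∣ padicValNat ℓ n) : ∃ a : ℕ, a ≠ 0 ∧ n = a ^ r := by
  refine ⟨∏ p ∈ n.primeFactors, p ^ (n.factorization p / r), ?_, ?_⟩
  · refine Finset.prod_ne_zero_iff.2 fun p hp => ?_
    exact pow_ne_zero _ (Nat.prime_of_mem_primeFactors hp).ne_zero
  · rw [← Finset.prod_pow]
    conv_lhs => rw [Nat.prod_primeFactors_pow_factorization hn]
    refine Finset.prod_congr rfl fun p hp => ?_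
    have hpp := Nat.prime_of_mem_primeFactors hp
    rw [← pow_mul, Nat.div_mul_cancel]
    rw [Nat.factorization_def n hpp]
    exact h p hpp

/-- numerator and denominator of such a rational are `r`-th powers -/
theorem mzq_rp_num_den (r : ℕ) (x : ℚ) (hx : x ≠ 0)
    (h : ∀ ℓ : ℕ, ℓ.Prime → (r : ℤ) ∣ padicValRat ℓ x) :
    (∃ a : ℕ, a ≠ 0 ∧ x.num.natAbs = a ^ r) ∧ ∃ b : ℕ, b ≠ 0 ∧ x.den = b ^ r := by
  have hnum : x.num.natAbs ≠ 0 := Int.natAbs_ne_zero.2 (Rat.num_ne_zero.2 hx)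
  have hcop : Nat.Coprime x.num.natAbs x.den := x.reduced
  have key : ∀ ℓ : ℕ, ℓ.Prime → r ∣ padicValNat ℓ x.num.natAbs ∧ r ∣ padicValNat ℓ x.den := by
    intro ℓ hℓ
    have h1 := h ℓ hℓ
    rw [padicValRat_def, padicValInt] at h1
    by_cases hd : ℓ ∣ x.den
    · have hn : ¬ ℓ ∣ x.num.natAbs := fun hn =>
        hℓ.one_lt.ne' (Nat.eq_one_of_dvd_coprimes hcop hn hd)
      have h0 : padicValNat ℓ x.num.natAbs = 0 := padicValNat.eq_zero_of_not_dvd hn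
      rw [h0] at h1 ⊢
      refine ⟨dvd_zero _, ?_⟩
      have h2 : (r : ℤ) ∣ ((padicValNat ℓ x.den : ℕ) : ℤ) := by
        have := (dvd_neg (a := (r : ℤ))).2 h1
        simpa using this
      exact_mod_cast h2
    · have h0 : padicValNat ℓ x.den = 0 := padicValNat.eq_zero_of_not_dvd hd
      rw [h0] at h1 ⊢
      refine ⟨?_, dvd_zero _⟩
      have h2 : (r : ℤ) ∣ ((padicValNat ℓ x.num.natAbs : ℕ) : ℤ) := by simpa using h1
      exact_mod_cast h2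
  exact ⟨mzq_rp_nat r _ hnum fun ℓ hℓ => (key ℓ hℓ).1,
    mzq_rp_nat r _ x.den_ne_zero fun ℓ hℓ => (key ℓ hℓ).2⟩

/-- the absolute value of such a rational is an `r`-th power -/
theorem mzq_rp_abs (r : ℕ) (x : ℚ) (hx : x ≠ 0)
    (h : ∀ ℓ : ℕ, ℓ.Prime → (r : ℤ) ∣ padicValRat ℓ x) : ∃ t : ℚ, 0 < t ∧ |x| = t ^ r := by
  obtain ⟨⟨a, ha0, ha⟩, b, hb0, hb⟩ := mzq_rp_num_den r x hx h
  refine ⟨(a : ℚ) / b, by positivity, ?_⟩
  have hxabs : |x| = (x.num.natAbs : ℚ) / (x.den : ℚ) := by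
    conv_lhs => rw [← Rat.num_div_den x]
    rw [abs_div, Nat.abs_cast, Nat.cast_natAbs, Int.cast_abs]
  rw [hxabs, ha, hb, div_pow]
  push_cast
  rfl

/-- main statement: `r` prime, all valuations divisible by `r`, and `x > 0` if `r = 2` -/
theorem mzq_rp_main (r : ℕ) (hr : r.Prime) (x : ℚ) (hx : x ≠ 0)
    (h : ∀ ℓ : ℕ, ℓ.Prime → (r : ℤ) ∣ padicValRat ℓ x) (hs : r ≠ 2 ∨ 0 < x) :
    ∃ t : ℚ, x = t ^ r := by
  obtain ⟨t, -, ht⟩ := mzq_rp_abs r x hx h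
  rcases lt_or_gt_of_ne hx with hneg | hpos
  · have hr2 : r ≠ 2 := by
      rcases hs with h2 | h2
      · exact h2
      · exact absurd hneg (not_lt.2 h2.le)
    have hodd : Odd r := hr.odd_of_ne_two hr2
    refine ⟨-t, ?_⟩
    rw [hodd.neg_pow, ← ht, abs_of_neg hneg, neg_neg]
  · exact ⟨t, by rw [← ht, abs_of_pos hpos]⟩

/-- no sign hypothesis: up to sign when `r = 2` -/
theorem mzq_rp_sign (r : ℕ) (hr : r.Prime) (x : ℚ) (hx : x ≠ 0)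
    (h : ∀ ℓ : ℕ, ℓ.Prime → (r : ℤ) ∣ padicValRat ℓ x) :
    ∃ t : ℚ, x = t ^ r ∨ (r = 2 ∧ x = -t ^ r) := by
  by_cases hs : r ≠ 2 ∨ 0 < x
  · obtain ⟨t, ht⟩ := mzq_rp_main r hr x hx h hs
    exact ⟨t, Or.inl ht⟩
  · obtain ⟨hr2', hx0'⟩ := not_or.1 hs
    have hr2 : r = 2 := not_not.1 hr2'
    have hx0 : x ≤ 0 := not_lt.1 hx0'
    have hneg : 0 < -x := by
      rcases lt_or_gt_of_ne hx with h1 | h1
      · linarith
      · exact absurd h1 (not_lt.2 hx0)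
    obtain ⟨t, ht⟩ := mzq_rp_main r hr (-x) (neg_ne_zero.2 hx)
      (fun ℓ hℓ => by rw [padicValRat.neg]; exact h ℓ hℓ) (Or.inr hneg)
    exact ⟨t, Or.inr ⟨hr2, by rw [← ht, neg_neg]⟩⟩

/-- one exceptional prime `p` -/
theorem mzq_rp_except (r : ℕ) (hr : r.Prime) (p : ℕ) (hp : p.Prime) (x : ℚ) (hx : x ≠ 0)
    (h : ∀ ℓ : ℕ, ℓ.Prime → ℓ ≠ p → (r : ℤ) ∣ padicValRat ℓ x) :
    ∃ (t : ℚ) (k : ℕ), k < r ∧
      (x = (p : ℚ) ^ k * t ^ r ∨ (r = 2 ∧ x = -((p : ℚ) ^ k * t ^ r))) := by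
  have hr0 : (r : ℤ) ≠ 0 := by exact_mod_cast hr.ne_zero
  have hp0 : (p : ℚ) ≠ 0 := by exact_mod_cast hp.ne_zero
  set v : ℤ := padicValRat p x with hv
  set k : ℕ := (v % (r : ℤ)).toNat with hk
  have hk0 : 0 ≤ v % (r : ℤ) := Int.emod_nonneg _ hr0
  have hkr : v % (r : ℤ) < r := Int.emod_lt_of_pos _ (by exact_mod_cast hr.pos)
  have hkcast : (k : ℤ) = v % (r : ℤ) := Int.toNat_of_nonneg hk0
  have hklt : k < r := by
    have : (k : ℤ) < r := by rw [hkcast]; exact hkr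
    exact_mod_cast this
  have hy : x / (p : ℚ) ^ k ≠ 0 := div_ne_zero hx (pow_ne_zero _ hp0)
  have hval : ∀ ℓ : ℕ, ℓ.Prime → (r : ℤ) ∣ padicValRat ℓ (x / (p : ℚ) ^ k) := by
    intro ℓ hℓ
    have : Fact ℓ.Prime := ⟨hℓ⟩
    rw [padicValRat.div hx (pow_ne_zero _ hp0), padicValRat.pow]
    by_cases hℓp : ℓ = p
    · subst hℓp
      rw [padicValRat.self hℓ.one_lt, mul_one, hkcast, ← hv]
      exact Int.dvd_self_sub_emod
    · have h0 : padicValRat ℓ (p : ℚ) = 0 := by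
        rw [padicValRat.of_nat]
        have : ¬ ℓ ∣ p := fun hd => hℓp ((Nat.prime_dvd_prime_iff_eq hℓ hp).1 hd)
        exact_mod_cast padicValNat.eq_zero_of_not_dvd this
      rw [h0, mul_zero, sub_zero]
      exact h ℓ hℓ hℓp
  obtain ⟨t, ht⟩ := mzq_rp_sign r hr _ hy hval
  refine ⟨t, k, hklt, ?_⟩
  rcases ht with ht | ⟨hr2, ht⟩
  · left
    rw [← ht, mul_div_cancel₀ _ (pow_ne_zero _ hp0)]
  · right
    refine ⟨hr2, ?_⟩
    rw [← mul_neg, ← ht, mul_div_cancel₀ _ (pow_ne_zero _ hp0)]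

end Fermat.Agent.MZ
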